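import Mathlib
import Fermat.Prelude.Def_GaloisRep_Adic

/-!
# Burnside's theorem for absolutely irreducible residual representations
-/

set_option autoImplicit false
set_option linter.style.haveILetI false

noncomputable section

open scoped TensorProduct

namespace Fermat.Agent.UnivDef

local notation "GQ" => (AlgebraicClosure ℚ ≃ₐ[ℚ] AlgebraicClosure ℚ)

/-- Burnside over an algebraically closed field. -/
theorem burnside_algClosed {K G V : Type*} [Field K] [IsAlgClosed K] [Group G] [AddCommGroup V]
    [Module K V] [FiniteDimensional K V] [Nontrivial V] (ρ : G →* Module.End K V)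
    (hirr : ∀ W : Submodule K V, (∀ σ : G, ∀ x ∈ W, ρ σ x ∈ W) → W = ⊥ ∨ W = ⊤) :
    Algebra.adjoin K (Set.range ρ) = ⊤ := by
  set S : Subalgebra K (Module.End K V) := Algebra.adjoin K (Set.range ρ) with hS
  haveI hsimple : IsSimpleModule S V := by
    haveI : Nontrivial (Submodule S V) := by
      obtain ⟨v, hv⟩ := exists_ne (0 : V)
      refine ⟨⊥, ⊤, fun h => hv ?_⟩
      have : v ∈ (⊤ : Submodule S V) := Submodule.mem_top
      rw [← h] at this
      exact (Submodule.mem_bot S).mp this
    refine { eq_bot_or_eq_top := fun W => ?_ }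
    have h1 := hirr (W.restrictScalars K) (by
      intro σ x hx
      have : (⟨ρ σ, Algebra.subset_adjoin ⟨σ, rfl⟩⟩ : S) • x ∈ W := W.smul_mem _ hx
      exact this)
    rcases h1 with h1 | h1
    · left
      exact (Submodule.restrictScalars_eq_bot_iff K S V).mp h1
    · right
      exact (Submodule.restrictScalars_eq_top_iff K S V).mp h1
  have hschur := IsSimpleModule.algebraMap_end_bijective_of_isAlgClosed (A := S) (V := V) K
  haveI : Module.Finite (Module.End S V) V := by
    haveI : IsScalarTower K (Module.End S V) V := inferInstance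
    exact Module.Finite.of_restrictScalars_finite K _ _
  have hdens := Module.Finite.toModuleEnd_moduleEnd_surjective (R := S) (M := V)
  rw [eq_top_iff]
  intro f _
  let f' : Module.End (Module.End S V) V :=
    { toFun := f
      map_add' := f.map_add
      map_smul' := by
        intro g v
        obtain ⟨c, rfl⟩ := hschur.2 g
        simp }
  obtain ⟨s, hs⟩ := hdens f'
  have : (s : Module.End K V) = f := by
    refine LinearMap.ext fun v => ?_
    exact congrArg (fun h : Module.End (Module.End S V) V => h v) hs
  rw [← this]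
  exact s.2

theorem span_range_eq_top_algClosed {K G V : Type*} [Field K] [IsAlgClosed K] [Group G]
    [AddCommGroup V]
    [Module K V] [FiniteDimensional K V] [Nontrivial V] (ρ : G →* Module.End K V)
    (hirr : ∀ W : Submodule K V, (∀ σ : G, ∀ x ∈ W, ρ σ x ∈ W) → W = ⊥ ∨ W = ⊤) :
    Submodule.span K (Set.range ρ) = ⊤ := by
  have h1 := burnside_algClosed ρ hirr
  have h2 : ((Submonoid.closure (Set.range ρ) : Submonoid (Module.End K V)) :
      Set (Module.End K V)) = Set.range ρ := by
    have : Set.range ρ = ((MonoidHom.mrange ρ : Submonoid (Module.End K V)) :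
        Set (Module.End K V)) := by
      ext x; simp
    rw [this, Submonoid.closure_eq]
  have h3 := congrArg Subalgebra.toSubmodule h1
  rw [Algebra.adjoin_eq_span, h2] at h3
  rw [h3]
  rfl

variable {k : Type} [Field k]

theorem span_matrix_eq_top_of_isIrreducible (K : Type) [Field K] [IsAlgClosed K] [Algebra k K]
    (ρbar : ResidualGaloisRep k) (habs : (ρbar.baseChange K).IsIrreducible)
    (b : Module.Basis (Fin 2) k ρbar.V) :
    Submodule.span k (Set.range fun g : GQ => LinearMap.toMatrix b b (ρbar.ρ g)) = ⊤ := by
  let ρK : GQ →* Module.End K (K ⊗[k] ρbar.V) := (ρbar.baseChange K).ρ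
  haveI : Nontrivial (K ⊗[k] ρbar.V) := by
    apply Module.nontrivial_of_finrank_pos (R := K)
    rw [Module.finrank_baseChange, ρbar.finrank_eq]
    norm_num
  have hspan : Submodule.span K (Set.range ρK) = ⊤ := span_range_eq_top_algClosed ρK habs
  let bK : Module.Basis (Fin 2) K (K ⊗[k] ρbar.V) := Algebra.TensorProduct.basis K b
  have hmat : ∀ g : GQ, LinearMap.toMatrix bK bK (ρK g) =
      (LinearMap.toMatrix b b (ρbar.ρ g)).map (algebraMap k K) := fun g => by
    have h1 : ρK g = (ρbar.ρ g).baseChange K := rfl
    rw [h1]
    exact LinearMap.toMatrix_baseChange K (ρbar.ρ g) b b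
  have hspan' : Submodule.span K (Set.range fun g : GQ =>
      (LinearMap.toMatrix b b (ρbar.ρ g)).map (algebraMap k K)) = ⊤ := by
    have h1 := congrArg (Submodule.map (LinearMap.toMatrix bK bK).toLinearMap) hspan
    rw [Submodule.map_span, ← Set.range_comp, Submodule.map_top, LinearMap.range_eq_top.mpr
      (LinearMap.toMatrix bK bK).surjective] at h1
    rw [← h1]
    congr 1
    ext x
    simp only [Set.mem_range, Function.comp_apply]
    constructor
    · rintro ⟨g, rfl⟩
      exact ⟨g, hmat g⟩
    · rintro ⟨g, rfl⟩
      exact ⟨g, (hmat g).symm⟩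
  by_contra hne
  obtain ⟨f, hf, hfS⟩ := Submodule.exists_le_ker_of_lt_top _ (lt_top_iff_ne_top.mpr hne)
  -- extend `f` to `K`
  let F : Matrix (Fin 2) (Fin 2) K →ₗ[K] K :=
    { toFun := fun M => ∑ i, ∑ j, algebraMap k K (f (Matrix.single i j 1)) * M i j
      map_add' := by
        intro M N
        simp only [Matrix.add_apply, mul_add, Finset.sum_add_distrib]
      map_smul' := by
        intro c M
        simp only [Matrix.smul_apply, smul_eq_mul, RingHom.id_apply]
        rw [Finset.mul_sum]
        refine Finset.sum_congr rfl fun i _ => ?_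
        rw [Finset.mul_sum]
        refine Finset.sum_congr rfl fun j _ => ?_
        ring }
  have hFf : ∀ M : Matrix (Fin 2) (Fin 2) k, F (M.map (algebraMap k K)) = algebraMap k K (f M) := by
    intro M
    have h1 : M = ∑ i, ∑ j, M i j • Matrix.single i j (1 : k) := by
      conv_lhs => rw [Matrix.matrix_eq_sum_single M]
      refine Finset.sum_congr rfl fun i _ => Finset.sum_congr rfl fun j _ => ?_
      rw [Matrix.smul_single, smul_eq_mul, mul_one]
    conv_rhs => rw [h1]
    simp only [map_sum, map_smul, smul_eq_mul, map_mul]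
    show ∑ i, ∑ j, algebraMap k K (f (Matrix.single i j 1)) * (M.map (algebraMap k K)) i j = _
    refine Finset.sum_congr rfl fun i _ => Finset.sum_congr rfl fun j _ => ?_
    rw [Matrix.map_apply, mul_comm]
  have hF0 : F = 0 := by
    apply LinearMap.ext_on_range (v := fun g : GQ =>
      (LinearMap.toMatrix b b (ρbar.ρ g)).map (algebraMap k K)) hspan'
    intro g
    rw [hFf, hfS (Submodule.subset_span ⟨g, rfl⟩)]
    simp
  apply hf
  refine LinearMap.ext fun M => ?_
  have := hFf M
  rw [hF0] at this
  simp only [LinearMap.zero_apply] at this ⊢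
  exact (map_eq_zero (algebraMap k K)).mp this.symm

/-- Burnside's theorem for absolutely irreducible residual representations, in matrix form. -/
theorem span_matrix_eq_top (ρbar : ResidualGaloisRep k) (habs : ρbar.IsAbsolutelyIrreducible)
    (b : Module.Basis (Fin 2) k ρbar.V) :
    Submodule.span k (Set.range fun g : GQ => LinearMap.toMatrix b b (ρbar.ρ g)) = ⊤ :=
  span_matrix_eq_top_of_isIrreducible (AlgebraicClosure k) ρbar habs b

end Fermat.Agent.UnivDef
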