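import Mathlib
import Fermat.Prelude.Def_GaloisRep_Adic

/-!
# Matrix form of adic Galois representations
-/

set_option autoImplicit false
set_option linter.style.haveILetI false
set_option linter.unusedSectionVars false

noncomputable section

open scoped TensorProduct
open IsLocalRing

namespace Fermat.Agent.UnivDef

local notation "GQ" => (AlgebraicClosure ℚ ≃ₐ[ℚ] AlgebraicClosure ℚ)

section Basic

variable {A : Type} [CommRing A] [IsLocalRing A]

/-- Adic continuity of a matrix representation. -/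
def IsContMat (r : GQ →* Matrix (Fin 2) (Fin 2) A) : Prop :=
  ∀ n : ℕ, ∃ L : IntermediateField ℚ (AlgebraicClosure ℚ), FiniteDimensional ℚ L ∧
    ∀ σ : GQ, (∀ x ∈ L, σ x = x) → ∀ i j, (r σ - 1) i j ∈ maximalIdeal A ^ n

omit [IsLocalRing A] in
theorem mem_smul_top_of_forall_mem {I : Ideal A} {w : Fin 2 → A} (h : ∀ i, w i ∈ I) :
    w ∈ I • (⊤ : Submodule A (Fin 2 → A)) := by
  have h1 : w = ∑ i, w i • (Pi.single i 1 : Fin 2 → A) := by
    rw [← pi_eq_sum_univ' w]
  rw [h1]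
  exact Submodule.sum_mem _ fun i _ => Submodule.smul_mem_smul (h i) Submodule.mem_top

omit [IsLocalRing A] in
theorem repr_mem_of_mem_smul_top {V : Type} [AddCommGroup V] [Module A V]
    (b : Module.Basis (Fin 2) A V) {I : Ideal A} {w : V}
    (h : w ∈ I • (⊤ : Submodule A V)) (i : Fin 2) : b.repr w i ∈ I := by
  refine Submodule.smul_induction_on (p := fun w => b.repr w i ∈ I) h ?_ ?_
  · intro a ha v _
    rw [map_smul, Finsupp.smul_apply, smul_eq_mul]
    exact I.mul_mem_right _ ha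
  · intro x y hx hy
    rw [map_add, Finsupp.add_apply]
    exact I.add_mem hx hy

/-- The adic Galois representation attached to a continuous matrix representation. -/
def ofMat (r : GQ →* Matrix (Fin 2) (Fin 2) A) (hr : IsContMat r) : GaloisRepAdic A where
  V := Fin 2 → A
  finrank_eq := by simp
  ρ := ((Matrix.toLinAlgEquiv' (R := A) (n := Fin 2)) :
    Matrix (Fin 2) (Fin 2) A →* Module.End A (Fin 2 → A)).comp r
  isAdicContinuous := by
    intro n
    obtain ⟨L, hL, h1⟩ := hr n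
    refine ⟨L, hL, fun σ hσ v => ?_⟩
    have h2 : (((Matrix.toLinAlgEquiv' (R := A) (n := Fin 2)) :
      Matrix (Fin 2) (Fin 2) A →* Module.End A (Fin 2 → A)).comp r) σ v - v =
        (r σ - 1).mulVec v := by
      rw [Matrix.sub_mulVec, Matrix.one_mulVec]
      rfl
    rw [h2]
    refine mem_smul_top_of_forall_mem fun i => ?_
    rw [Matrix.mulVec, dotProduct]
    exact Ideal.sum_mem _ fun j _ => Ideal.mul_mem_right _ _ (h1 σ hσ i j)

@[simp] theorem ofMat_V (r : GQ →* Matrix (Fin 2) (Fin 2) A) (hr : IsContMat r) :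
    (ofMat r hr).V = (Fin 2 → A) := rfl

/-- The standard basis of `ofMat`. -/
def stdBasis (r : GQ →* Matrix (Fin 2) (Fin 2) A) (hr : IsContMat r) :
    Module.Basis (Fin 2) A (ofMat r hr).V := Pi.basisFun A (Fin 2)

theorem toMatrix_ofMat (r : GQ →* Matrix (Fin 2) (Fin 2) A) (hr : IsContMat r) (σ : GQ) :
    LinearMap.toMatrix (stdBasis r hr) (stdBasis r hr) ((ofMat r hr).ρ σ) = r σ := by
  show LinearMap.toMatrix (Pi.basisFun A (Fin 2)) (Pi.basisFun A (Fin 2))
    (Matrix.toLin' (r σ)) = r σ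
  rw [LinearMap.toMatrix_eq_toMatrix', LinearMap.toMatrix'_toLin']

/-- The matrix representation attached to a basis. -/
def matOf (ρ : GaloisRepAdic A) (b : Module.Basis (Fin 2) A ρ.V) :
    GQ →* Matrix (Fin 2) (Fin 2) A where
  toFun σ := LinearMap.toMatrix b b (ρ.ρ σ)
  map_one' := by rw [map_one]; exact LinearMap.toMatrix_one b
  map_mul' σ τ := by rw [map_mul]; exact LinearMap.toMatrix_mul b _ _

theorem matOf_apply (ρ : GaloisRepAdic A) (b : Module.Basis (Fin 2) A ρ.V) (σ : GQ) :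
    matOf ρ b σ = LinearMap.toMatrix b b (ρ.ρ σ) := rfl

theorem isContMat_matOf (ρ : GaloisRepAdic A) (b : Module.Basis (Fin 2) A ρ.V) :
    IsContMat (matOf ρ b) := by
  intro n
  obtain ⟨L, hL, h1⟩ := ρ.isAdicContinuous n
  refine ⟨L, hL, fun σ hσ i j => ?_⟩
  have h2 : (matOf ρ b σ - 1) i j = b.repr (ρ.ρ σ (b j) - b j) i := by
    rw [Matrix.sub_apply, matOf_apply, LinearMap.toMatrix_apply, map_sub, Finsupp.sub_apply,
      Module.Basis.repr_self, Matrix.one_apply, Finsupp.single_apply]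
    simp only [eq_comm]
  rw [h2]
  exact repr_mem_of_mem_smul_top b (h1 σ hσ (b j)) i

/-- Two representations with equal matrices are equivalent. -/
theorem isEquiv_of_toMatrix_eq (ρ₁ ρ₂ : GaloisRepAdic A) (b₁ : Module.Basis (Fin 2) A ρ₁.V)
    (b₂ : Module.Basis (Fin 2) A ρ₂.V)
    (h : ∀ σ, LinearMap.toMatrix b₁ b₁ (ρ₁.ρ σ) = LinearMap.toMatrix b₂ b₂ (ρ₂.ρ σ)) :
    ρ₁.IsEquiv ρ₂ := by
  refine ⟨⟨b₁.equiv b₂ (Equiv.refl _), fun σ x => ?_⟩⟩
  have h1 : (b₁.equiv b₂ (Equiv.refl _)).toLinearMap ∘ₗ ρ₁.ρ σ =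
      ρ₂.ρ σ ∘ₗ (b₁.equiv b₂ (Equiv.refl _)).toLinearMap := by
    refine b₁.ext fun j => ?_
    simp only [LinearMap.comp_apply, LinearEquiv.coe_coe, Module.Basis.equiv_apply,
      Equiv.refl_apply]
    apply b₂.repr.injective
    ext i
    have h2 := congrFun (congrFun (h σ) i) j
    rw [LinearMap.toMatrix_apply, LinearMap.toMatrix_apply] at h2
    rw [← h2]
    simp [Module.Basis.equiv]
  exact LinearMap.congr_fun h1 x

theorem residual_isEquiv_of_toMatrix_eq {k : Type} [Field k] (ρ₁ ρ₂ : ResidualGaloisRep k)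
    (b₁ : Module.Basis (Fin 2) k ρ₁.V)
    (b₂ : Module.Basis (Fin 2) k ρ₂.V)
    (h : ∀ σ, LinearMap.toMatrix b₁ b₁ (ρ₁.ρ σ) = LinearMap.toMatrix b₂ b₂ (ρ₂.ρ σ)) :
    ρ₁.IsEquiv ρ₂ := by
  refine ⟨⟨b₁.equiv b₂ (Equiv.refl _), fun σ x => ?_⟩⟩
  have h1 : (b₁.equiv b₂ (Equiv.refl _)).toLinearMap ∘ₗ ρ₁.ρ σ =
      ρ₂.ρ σ ∘ₗ (b₁.equiv b₂ (Equiv.refl _)).toLinearMap := by
    refine b₁.ext fun j => ?_
    simp only [LinearMap.comp_apply, LinearEquiv.coe_coe, Module.Basis.equiv_apply,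
      Equiv.refl_apply]
    apply b₂.repr.injective
    ext i
    have h2 := congrFun (congrFun (h σ) i) j
    rw [LinearMap.toMatrix_apply, LinearMap.toMatrix_apply] at h2
    rw [← h2]
    simp [Module.Basis.equiv]
  exact LinearMap.congr_fun h1 x

theorem isEquiv_ofMat_matOf (ρ : GaloisRepAdic A) (b : Module.Basis (Fin 2) A ρ.V) :
    ρ.IsEquiv (ofMat (matOf ρ b) (isContMat_matOf ρ b)) :=
  isEquiv_of_toMatrix_eq _ _ b (stdBasis _ _) fun σ => by
    rw [toMatrix_ofMat]; rfl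

end Basic

section BaseChange

variable {A B : Type} [CommRing A] [IsLocalRing A] [CommRing B] [IsLocalRing B]

/-- The basis of the base change. -/
def basisBaseChangeAlong (φ : A →+* B) (hφ : IsLocalHom φ) (ρ : GaloisRepAdic A)
    (b : Module.Basis (Fin 2) A ρ.V) : Module.Basis (Fin 2) B (ρ.baseChangeAlong φ hφ).V :=
  letI : Algebra A B := φ.toAlgebra
  Algebra.TensorProduct.basis B b

theorem toMatrix_baseChangeAlong (φ : A →+* B) (hφ : IsLocalHom φ) (ρ : GaloisRepAdic A)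
    (b : Module.Basis (Fin 2) A ρ.V) (σ : GQ) :
    LinearMap.toMatrix (basisBaseChangeAlong φ hφ ρ b) (basisBaseChangeAlong φ hφ ρ b)
      ((ρ.baseChangeAlong φ hφ).ρ σ) = (LinearMap.toMatrix b b (ρ.ρ σ)).map φ := by
  letI : Algebra A B := φ.toAlgebra
  exact LinearMap.toMatrix_baseChange B (ρ.ρ σ) b b

/-- The basis of the residual representation. -/
def basisResidual (ρ : GaloisRepAdic A)
    (b : Module.Basis (Fin 2) A ρ.V) : Module.Basis (Fin 2) (ResidueField A) ρ.residual.V :=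
  Algebra.TensorProduct.basis (ResidueField A) b

theorem toMatrix_residual (ρ : GaloisRepAdic A)
    (b : Module.Basis (Fin 2) A ρ.V) (σ : GQ) :
    LinearMap.toMatrix (basisResidual ρ b) (basisResidual ρ b)
      (ρ.residual.ρ σ) = (LinearMap.toMatrix b b (ρ.ρ σ)).map (residue A) :=
  LinearMap.toMatrix_baseChange (ResidueField A) (ρ.ρ σ) b b

/-- The basis of the base change of a residual representation. -/
def basisBaseChangeAlongRes {k k' : Type} [Field k] [Field k'] (φ : k →+* k')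
    (ρ : ResidualGaloisRep k)
    (b : Module.Basis (Fin 2) k ρ.V) : Module.Basis (Fin 2) k' (ρ.baseChangeAlong φ).V :=
  letI : Algebra k k' := φ.toAlgebra
  Algebra.TensorProduct.basis k' b

theorem toMatrix_baseChangeAlongRes {k k' : Type} [Field k] [Field k'] (φ : k →+* k')
    (ρ : ResidualGaloisRep k) (b : Module.Basis (Fin 2) k ρ.V) (σ : GQ) :
    LinearMap.toMatrix (basisBaseChangeAlongRes φ ρ b) (basisBaseChangeAlongRes φ ρ b)
      ((ρ.baseChangeAlong φ).ρ σ) = (LinearMap.toMatrix b b (ρ.ρ σ)).map φ := by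
  letI : Algebra k k' := φ.toAlgebra
  exact LinearMap.toMatrix_baseChange k' (ρ.ρ σ) b b

/-- Push forward of matrix representations. -/
def mapMat (φ : A →+* B) (r : GQ →* Matrix (Fin 2) (Fin 2) A) :
    GQ →* Matrix (Fin 2) (Fin 2) B :=
  ((RingHom.mapMatrix (m := Fin 2) φ).toMonoidHom).comp r

omit [IsLocalRing A] [IsLocalRing B] in
@[simp] theorem mapMat_apply (φ : A →+* B) (r : GQ →* Matrix (Fin 2) (Fin 2) A) (σ : GQ)
    (i j : Fin 2) : mapMat φ r σ i j = φ (r σ i j) := rfl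

theorem map_mem_maximalIdeal_pow (φ : A →+* B) (hφ : IsLocalHom φ) {n : ℕ} {x : A}
    (hx : x ∈ maximalIdeal A ^ n) : φ x ∈ maximalIdeal B ^ n := by
  have h1 : (maximalIdeal A).map φ ≤ maximalIdeal B :=
    ((IsLocalRing.local_hom_TFAE φ).out 0 2).mp hφ
  have h2 : φ x ∈ ((maximalIdeal A).map φ) ^ n := by
    rw [← Ideal.map_pow]
    exact Ideal.mem_map_of_mem φ hx
  exact Ideal.pow_right_mono h1 n h2

theorem isContMat_mapMat (φ : A →+* B) (hφ : IsLocalHom φ) {r : GQ →* Matrix (Fin 2) (Fin 2) A}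
    (hr : IsContMat r) : IsContMat (mapMat φ r) := by
  intro n
  obtain ⟨L, hL, h⟩ := hr n
  refine ⟨L, hL, fun σ hσ i j => ?_⟩
  have h1 : (mapMat φ r σ - 1) i j = φ ((r σ - 1) i j) := by
    rw [Matrix.sub_apply, Matrix.sub_apply, map_sub, mapMat_apply, Matrix.one_apply,
      Matrix.one_apply]
    split_ifs <;> simp
  rw [h1]
  exact map_mem_maximalIdeal_pow φ hφ (h σ hσ i j)

/-- Base change of `ofMat`. -/
theorem ofMat_baseChangeAlong (φ : A →+* B) (hφ : IsLocalHom φ)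
    {r : GQ →* Matrix (Fin 2) (Fin 2) A} (hr : IsContMat r) (hr' : IsContMat (mapMat φ r)) :
    ((ofMat r hr).baseChangeAlong φ hφ).IsEquiv (ofMat (mapMat φ r) hr') := by
  refine isEquiv_of_toMatrix_eq _ _ (basisBaseChangeAlong φ hφ _ (stdBasis r hr)) (stdBasis _ _)
    fun σ => ?_
  rw [toMatrix_baseChangeAlong, toMatrix_ofMat, toMatrix_ofMat]
  rfl

end BaseChange

end Fermat.Agent.UnivDef
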