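import Mathlib
import Fermat.Prelude.Def_GaloisRep_Adic
import Fermat.Agent.UnivDef.Burnside
import Fermat.Agent.UnivDef.MatrixRep

/-!
# Normalised matrix representations
-/

set_option autoImplicit false
set_option linter.style.haveILetI false
set_option linter.unusedSectionVars false

noncomputable section

open scoped TensorProduct
open IsLocalRing

namespace Fermat.Agent.UnivDef

local notation "GQ" => (AlgebraicClosure ℚ ≃ₐ[ℚ] AlgebraicClosure ℚ)

variable {𝒪 : Type} [CommRing 𝒪] [IsLocalRing 𝒪]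

/-- Linear combinations of a family of matrices, with coefficients in `𝒪`. -/
def comb {A : Type} [CommRing A] [Algebra 𝒪 A] (c : GQ →₀ 𝒪) (r : GQ → Matrix (Fin 2) (Fin 2) A) :
    Matrix (Fin 2) (Fin 2) A :=
  c.sum fun g x => (algebraMap 𝒪 A x) • r g

theorem comb_apply {A : Type} [CommRing A] [Algebra 𝒪 A] (c : GQ →₀ 𝒪)
    (r : GQ → Matrix (Fin 2) (Fin 2) A) (i j : Fin 2) :
    comb c r i j = c.sum fun g x => (algebraMap 𝒪 A x) * r g i j := by
  rw [comb, Finsupp.sum, Finsupp.sum, Matrix.sum_apply]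
  rfl

theorem comb_map {A B : Type} [CommRing A] [Algebra 𝒪 A] [CommRing B] [Algebra 𝒪 B]
    (φ : A →ₐ[𝒪] B) (c : GQ →₀ 𝒪) (r : GQ → Matrix (Fin 2) (Fin 2) A)
    (r' : GQ → Matrix (Fin 2) (Fin 2) B) (h : ∀ g i j, r' g i j = φ (r g i j)) (i j : Fin 2) :
    comb c r' i j = φ (comb c r i j) := by
  rw [comb_apply, comb_apply, Finsupp.sum, Finsupp.sum, map_sum]
  refine Finset.sum_congr rfl fun g _ => ?_
  rw [map_mul, h, AlgHom.commutes]

theorem mul_comb {A : Type} [CommRing A] [Algebra 𝒪 A] (c : GQ →₀ 𝒪)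
    (r r' : GQ → Matrix (Fin 2) (Fin 2) A) (P Q : Matrix (Fin 2) (Fin 2) A)
    (h : ∀ g, P * r g = r' g * Q) : P * comb c r = comb c r' * Q := by
  rw [comb, comb, Finsupp.sum, Finsupp.sum, Finset.mul_sum, Finset.sum_mul]
  refine Finset.sum_congr rfl fun g _ => ?_
  rw [Matrix.mul_smul, h, Matrix.smul_mul]

variable (𝒪) in
/-- Data used to rigidify deformations of `ρbar`. -/
structure FrameData (ρbar : ResidualGaloisRep (ResidueField 𝒪)) where
  /-- a basis of the residual representation -/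
  b : Module.Basis (Fin 2) (ResidueField 𝒪) ρbar.V
  /-- a set-theoretic lift of the residual matrices -/
  lift : GQ → Matrix (Fin 2) (Fin 2) 𝒪
  lift_spec : ∀ g i j, residue 𝒪 (lift g i j) = LinearMap.toMatrix b b (ρbar.ρ g) i j
  /-- a combination acting as `E₀₀` -/
  α : GQ →₀ 𝒪
  /-- a combination acting as `E₁₀` -/
  β : GQ →₀ 𝒪
  α_spec : ∀ i j, residue 𝒪 (α.sum fun g x => x * lift g i j) = if i = 0 ∧ j = 0 then 1 else 0
  β_spec : ∀ i j, residue 𝒪 (β.sum fun g x => x * lift g i j) = if i = 1 ∧ j = 0 then 1 else 0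

theorem nonempty_frameData (ρbar : ResidualGaloisRep (ResidueField 𝒪))
    (habs : ρbar.IsAbsolutelyIrreducible) : Nonempty (FrameData 𝒪 ρbar) := by
  classical
  let b : Module.Basis (Fin 2) (ResidueField 𝒪) ρbar.V :=
    Module.finBasisOfFinrankEq _ _ ρbar.finrank_eq
  have hspan := span_matrix_eq_top ρbar habs b
  choose s hs using residue_surjective (R := 𝒪)
  let lift : GQ → Matrix (Fin 2) (Fin 2) 𝒪 := fun g =>
    Matrix.of fun i j => s (LinearMap.toMatrix b b (ρbar.ρ g) i j)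
  have hlift : ∀ g i j, residue 𝒪 (lift g i j) = LinearMap.toMatrix b b (ρbar.ρ g) i j :=
    fun g i j => hs _
  have key : ∀ M : Matrix (Fin 2) (Fin 2) (ResidueField 𝒪), ∃ α : GQ →₀ 𝒪,
      ∀ i j, residue 𝒪 (α.sum fun g x => x * lift g i j) = M i j := by
    intro M
    have hM : M ∈ Submodule.span (ResidueField 𝒪)
        (Set.range fun g : GQ => LinearMap.toMatrix b b (ρbar.ρ g)) := by
      rw [hspan]; exact Submodule.mem_top
    obtain ⟨c, hc⟩ := Finsupp.mem_span_range_iff_exists_finsupp.mp hM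
    obtain ⟨α, hα⟩ := Finsupp.mapRange_surjective (α := GQ) (residue 𝒪) (map_zero _)
      residue_surjective c
    refine ⟨α, fun i j => ?_⟩
    have h1 : (Finsupp.mapRange (residue 𝒪) (map_zero _) α).sum
        (fun g a => a • LinearMap.toMatrix b b (ρbar.ρ g)) =
        α.sum (fun g a => residue 𝒪 a • LinearMap.toMatrix b b (ρbar.ρ g)) :=
      Finsupp.sum_mapRange_index (fun _ => zero_smul _ _)
    rw [← hc, ← hα, h1, Finsupp.sum, Finsupp.sum, map_sum, Matrix.sum_apply]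
    refine Finset.sum_congr rfl fun g _ => ?_
    rw [map_mul, hlift]
    rfl
  obtain ⟨α, hα⟩ := key (Matrix.of fun i j => if i = 0 ∧ j = 0 then 1 else 0)
  obtain ⟨β, hβ⟩ := key (Matrix.of fun i j => if i = 1 ∧ j = 0 then 1 else 0)
  exact ⟨⟨b, lift, hlift, α, β, hα, hβ⟩⟩

variable {ρbar : ResidualGaloisRep (ResidueField 𝒪)} (F : FrameData 𝒪 ρbar)

/-- Lifts of the residual matrices. -/
def IsLiftMat {A : Type} [CommRing A] [IsLocalRing A] [Algebra 𝒪 A]
    (r : GQ →* Matrix (Fin 2) (Fin 2) A) : Prop :=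
  ∀ g i j, r g i j - algebraMap 𝒪 A (F.lift g i j) ∈ maximalIdeal A

/-- Normalised matrix representations. -/
structure IsNorm {A : Type} [CommRing A] [IsLocalRing A] [Algebra 𝒪 A]
    (r : GQ →* Matrix (Fin 2) (Fin 2) A) : Prop where
  cont : IsContMat r
  res : IsLiftMat F r
  n1 : comb F.α r 1 0 = 0
  n2 : comb F.β r 0 0 = 0
  n3 : comb F.β r 1 0 = 1

section

variable {A : Type} [CommRing A] [IsLocalRing A] [Algebra 𝒪 A]

theorem comb_sub_mem {r : GQ →* Matrix (Fin 2) (Fin 2) A} (hr : IsLiftMat F r) (c : GQ →₀ 𝒪)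
    (i j : Fin 2) :
    comb c r i j - algebraMap 𝒪 A (c.sum fun g x => x * F.lift g i j) ∈ maximalIdeal A := by
  rw [comb_apply, Finsupp.sum, Finsupp.sum, map_sum, ← Finset.sum_sub_distrib]
  refine Ideal.sum_mem _ fun g _ => ?_
  rw [map_mul, ← mul_sub]
  exact Ideal.mul_mem_left _ _ (hr g i j)

theorem algebraMap_mem_of_residue_eq [IsLocalHom (algebraMap 𝒪 A)] {x y : 𝒪}
    (h : residue 𝒪 x = residue 𝒪 y) : algebraMap 𝒪 A x - algebraMap 𝒪 A y ∈ maximalIdeal A := by
  rw [← map_sub]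
  have h1 : x - y ∈ maximalIdeal 𝒪 := by
    rw [← residue_eq_zero_iff, map_sub, h, sub_self]
  have h2 : (maximalIdeal 𝒪).map (algebraMap 𝒪 A) ≤ maximalIdeal A :=
    ((IsLocalRing.local_hom_TFAE (algebraMap 𝒪 A)).out 0 2).mp ‹_›
  exact h2 (Ideal.mem_map_of_mem _ h1)

theorem comb_α_sub_mem [IsLocalHom (algebraMap 𝒪 A)] {r : GQ →* Matrix (Fin 2) (Fin 2) A}
    (hr : IsLiftMat F r) (i j : Fin 2) :
    comb F.α r i j - (if i = 0 ∧ j = 0 then 1 else 0) ∈ maximalIdeal A := by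
  have h1 := comb_sub_mem F hr F.α i j
  have h2 : algebraMap 𝒪 A (F.α.sum fun g x => x * F.lift g i j) -
      (if i = 0 ∧ j = 0 then 1 else 0) ∈ maximalIdeal A := by
    have h3 := algebraMap_mem_of_residue_eq (A := A)
      (x := F.α.sum fun g x => x * F.lift g i j) (y := if i = 0 ∧ j = 0 then 1 else 0) (by
        rw [F.α_spec]; split_ifs <;> simp)
    convert h3 using 2
    split_ifs <;> simp
  have h3 := Ideal.add_mem _ h1 h2
  simpa using h3

theorem comb_β_sub_mem [IsLocalHom (algebraMap 𝒪 A)] {r : GQ →* Matrix (Fin 2) (Fin 2) A}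
    (hr : IsLiftMat F r) (i j : Fin 2) :
    comb F.β r i j - (if i = 1 ∧ j = 0 then 1 else 0) ∈ maximalIdeal A := by
  have h1 := comb_sub_mem F hr F.β i j
  have h2 : algebraMap 𝒪 A (F.β.sum fun g x => x * F.lift g i j) -
      (if i = 1 ∧ j = 0 then 1 else 0) ∈ maximalIdeal A := by
    have h3 := algebraMap_mem_of_residue_eq (A := A)
      (x := F.β.sum fun g x => x * F.lift g i j) (y := if i = 1 ∧ j = 0 then 1 else 0) (by
        rw [F.β_spec]; split_ifs <;> simp)
    convert h3 using 2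
    split_ifs <;> simp
  have h3 := Ideal.add_mem _ h1 h2
  simpa using h3

/-- **Uniqueness of normalised representatives.** -/
theorem IsNorm.eq_of_conj [IsLocalHom (algebraMap 𝒪 A)] {r r' : GQ →* Matrix (Fin 2) (Fin 2) A}
    (hr : IsNorm F r) (hr' : IsNorm F r') (P : Matrix (Fin 2) (Fin 2) A) (hP : IsUnit P)
    (h : ∀ g, P * r g = r' g * P) : r = r' := by
  have hα := mul_comb F.α r r' P P h
  have hβ := mul_comb F.β r r' P P h
  have e1 := congrFun (congrFun hα 1) 0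
  have e2 := congrFun (congrFun hβ 0) 0
  have e3 := congrFun (congrFun hβ 1) 0
  simp only [Matrix.mul_apply, Fin.sum_univ_two] at e1 e2 e3
  rw [hr.n1, hr'.n1] at e1
  rw [hr.n2, hr'.n2, hr.n3] at e2
  rw [hr.n2, hr.n3, hr'.n3] at e3
  have hu : IsUnit (comb F.α r 0 0 - comb F.α r' 1 1) := by
    have h1 := comb_α_sub_mem F hr.res 0 0
    have h2 := comb_α_sub_mem F hr'.res 1 1
    simp at h1 h2
    by_contra hcon
    have h3 : comb F.α r 0 0 - comb F.α r' 1 1 ∈ maximalIdeal A := hcon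
    have h4 : (1 : A) ∈ maximalIdeal A := by
      have := Ideal.sub_mem _ (Ideal.sub_mem _ h3 h1) (Ideal.neg_mem_iff _ |>.mpr h2)
      convert this using 1
      ring
    exact (Ideal.ne_top_iff_one _).mp (Ideal.IsMaximal.ne_top inferInstance) h4
  have hs : P 1 0 = 0 := by
    have h5 : P 1 0 * (comb F.α r 0 0 - comb F.α r' 1 1) = 0 := by linear_combination e1
    exact (hu.mul_left_eq_zero).mp h5
  have hq : P 0 1 = 0 := by
    rw [hs] at e2
    linear_combination e2
  have ht : P 1 1 = P 0 0 := by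
    rw [hs] at e3
    linear_combination e3
  have hPs : P = P 0 0 • (1 : Matrix (Fin 2) (Fin 2) A) := by
    ext i j
    fin_cases i <;> fin_cases j <;> simp [hs, hq, ht]
  have hpu : IsUnit (P 0 0) := by
    have h6 := (Matrix.isUnit_iff_isUnit_det P).mp hP
    rw [Matrix.det_fin_two, hs, ht] at h6
    have : P 0 0 * P 0 0 - P 0 1 * 0 = P 0 0 * P 0 0 := by ring
    rw [this] at h6
    exact isUnit_of_mul_isUnit_left h6
  refine MonoidHom.ext fun g => ?_
  have h7 := h g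
  rw [hPs, Matrix.smul_mul, Matrix.one_mul, Matrix.mul_smul, Matrix.mul_one] at h7
  ext i j
  have h8 := congrFun (congrFun h7 i) j
  simp only [Matrix.smul_apply, smul_eq_mul] at h8
  exact hpu.mul_left_cancel h8

theorem isUnit_toMatrix_equiv {ρ₁ ρ₂ : GaloisRepAdic A} (e : GaloisRepAdic.Equiv ρ₁ ρ₂)
    (b₁ : Module.Basis (Fin 2) A ρ₁.V) (b₂ : Module.Basis (Fin 2) A ρ₂.V) :
    IsUnit (LinearMap.toMatrix b₁ b₂ e.toLinearEquiv.toLinearMap) := by
  refine ⟨⟨LinearMap.toMatrix b₁ b₂ e.toLinearEquiv.toLinearMap,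
    LinearMap.toMatrix b₂ b₁ e.toLinearEquiv.symm.toLinearMap, ?_, ?_⟩, rfl⟩
  · rw [← LinearMap.toMatrix_comp b₂ b₁ b₂]
    simp
  · rw [← LinearMap.toMatrix_comp b₁ b₂ b₁]
    simp

theorem IsNorm.eq_of_isEquiv [IsLocalHom (algebraMap 𝒪 A)]
    {r r' : GQ →* Matrix (Fin 2) (Fin 2) A}
    (hr : IsNorm F r) (hr' : IsNorm F r')
    (h : (ofMat r hr.cont).IsEquiv (ofMat r' hr'.cont)) : r = r' := by
  obtain ⟨e⟩ := h
  refine hr.eq_of_conj F hr' _ (isUnit_toMatrix_equiv e (stdBasis _ _) (stdBasis _ _)) fun g => ?_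
  have h1 : e.toLinearEquiv.toLinearMap ∘ₗ (ofMat r hr.cont).ρ g =
      (ofMat r' hr'.cont).ρ g ∘ₗ e.toLinearEquiv.toLinearMap :=
    LinearMap.ext fun x => e.map_apply g x
  have h2 := congrArg (LinearMap.toMatrix (stdBasis r hr.cont) (stdBasis r' hr'.cont)) h1
  rw [LinearMap.toMatrix_comp (stdBasis r hr.cont) (stdBasis r hr.cont) (stdBasis r' hr'.cont),
    LinearMap.toMatrix_comp (stdBasis r hr.cont) (stdBasis r' hr'.cont) (stdBasis r' hr'.cont),
    toMatrix_ofMat, toMatrix_ofMat] at h2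
  exact h2

end

end Fermat.Agent.UnivDef
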