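import Mathlib
import Fermat.Prelude.Def_GaloisRep_Adic
import Fermat.Agent.UnivDef.Normal

/-!
# Existence of normalised representatives, functoriality
-/

set_option autoImplicit false
set_option linter.style.haveILetI false
set_option linter.unusedSectionVars false

noncomputable section

open scoped TensorProduct
open IsLocalRing

namespace Fermat.Agent.UnivDef

local notation "GQ" => (AlgebraicClosure ℚ ≃ₐ[ℚ] AlgebraicClosure ℚ)

variable {𝒪 : Type} [CommRing 𝒪] [IsLocalRing 𝒪]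
variable {ρbar : ResidualGaloisRep (ResidueField 𝒪)} (F : FrameData 𝒪 ρbar)

section Functoriality

variable {A B : Type} [CommRing A] [IsLocalRing A] [Algebra 𝒪 A] [CommRing B] [IsLocalRing B]
  [Algebra 𝒪 B]

theorem IsNorm.map {r : GQ →* Matrix (Fin 2) (Fin 2) A} (hr : IsNorm F r) (φ : A →ₐ[𝒪] B)
    (hφ : IsLocalHom (φ : A →+* B)) : IsNorm F (mapMat (φ : A →+* B) r) := by
  have hc : ∀ (c : GQ →₀ 𝒪) (i j : Fin 2), comb c (mapMat (φ : A →+* B) r) i j =
      φ (comb c r i j) := fun c i j => comb_map φ c _ _ (fun g i j => rfl) i j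
  refine ⟨isContMat_mapMat _ hφ hr.cont, ?_, ?_, ?_, ?_⟩
  · intro g i j
    have h1 : mapMat (φ : A →+* B) r g i j - algebraMap 𝒪 B (F.lift g i j) =
        φ (r g i j - algebraMap 𝒪 A (F.lift g i j)) := by
      rw [map_sub, AlgHom.commutes]; rfl
    rw [h1]
    have := map_mem_maximalIdeal_pow (φ : A →+* B) hφ (n := 1) (x := r g i j -
      algebraMap 𝒪 A (F.lift g i j)) (by rw [pow_one]; exact hr.res g i j)
    rwa [pow_one] at this
  · rw [hc, hr.n1, map_zero]
  · rw [hc, hr.n2, map_zero]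
  · rw [hc, hr.n3, map_one]

/-- An algebra map between local algebras is local as soon as the target has the right residue
field. -/
theorem isLocalHom_of_algHom (φ : A →ₐ[𝒪] B) (hB : IsLocalHom (algebraMap 𝒪 B))
    (hsurj : Function.Surjective (residue B ∘ algebraMap 𝒪 B)) : IsLocalHom (φ : A →+* B) := by
  constructor
  intro x hx
  by_contra hxA
  have hxA' : x ∈ maximalIdeal A := hxA
  obtain ⟨c, hc⟩ := hsurj (residue B (φ x))
  have hc' : φ x - algebraMap 𝒪 B c ∈ maximalIdeal B := by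
    rw [← residue_eq_zero_iff, map_sub, sub_eq_zero]
    exact hc.symm
  by_cases hcu : IsUnit c
  · -- `x - c` is a unit
    have h1 : IsUnit (x - algebraMap 𝒪 A c) := by
      by_contra h2
      have h2' : x - algebraMap 𝒪 A c ∈ maximalIdeal A := h2
      have h3 : algebraMap 𝒪 A c ∈ maximalIdeal A := by
        have := Ideal.sub_mem _ hxA' h2'
        simpa using this
      exact h3 (hcu.map _)
    have h4 := h1.map φ
    rw [map_sub, AlgHom.commutes] at h4
    exact hc' h4
  · have h5 : algebraMap 𝒪 B c ∈ maximalIdeal B := fun h => hcu (hB.map_nonunit c h)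
    have h6 : φ x ∈ maximalIdeal B := by
      have := Ideal.add_mem _ hc' h5
      simpa using this
    exact h6 hx

end Functoriality

section Residual

variable {A : Type} [CommRing A] [IsLocalRing A] [Algebra 𝒪 A]

theorem residual_isEquiv_of_isLiftMat [IsLocalHom (algebraMap 𝒪 A)]
    {r : GQ →* Matrix (Fin 2) (Fin 2) A} (hr : IsContMat r) (h : IsLiftMat F r) :
    (ofMat r hr).residual.IsEquiv
      (ρbar.baseChangeAlong (ResidueField.map (algebraMap 𝒪 A))) := by
  refine residual_isEquiv_of_toMatrix_eq _ _ (basisResidual _ (stdBasis r hr))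
    (basisBaseChangeAlongRes _ ρbar F.b) fun σ => ?_
  rw [toMatrix_residual, toMatrix_baseChangeAlongRes, toMatrix_ofMat]
  ext i j
  rw [Matrix.map_apply, Matrix.map_apply, ← F.lift_spec, ResidueField.map_residue, ← sub_eq_zero,
    ← map_sub, residue_eq_zero_iff]
  exact h σ i j

end Residual

section Exists

variable {A : Type} [CommRing A] [IsLocalRing A] [Algebra 𝒪 A]

omit [Algebra 𝒪 A] in
theorem exists_lift_basis {V : Type} [AddCommGroup V] [Module A V] [Module.Free A V]
    [Module.Finite A V] (c : Module.Basis (Fin 2) (ResidueField A) (ResidueField A ⊗[A] V)) :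
    ∃ b : Module.Basis (Fin 2) A V, Algebra.TensorProduct.basis (ResidueField A) b = c := by
  have hsurj : Function.Surjective (TensorProduct.mk A (ResidueField A) V 1) := by
    exact TensorProduct.mk_surjective A V (ResidueField A) residue_surjective
  choose v hv using fun i => hsurj (c i)
  have hbij : Function.Bijective (Finsupp.linearCombination (ResidueField A)
      (TensorProduct.mk A (ResidueField A) V 1 ∘ v)) := by
    have h1 : (TensorProduct.mk A (ResidueField A) V 1 ∘ v) = c := by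
      funext i; exact hv i
    rw [h1, ← c.coe_repr_symm]
    exact c.repr.symm.bijective
  have hbij' := Module.IsLocalRing.linearCombination_bijective_of_flat v hbij
  let b : Module.Basis (Fin 2) A V :=
    Module.Basis.ofRepr (LinearEquiv.ofBijective _ hbij').symm
  have hb : ∀ i, b i = v i := by
    intro i
    show (LinearEquiv.ofBijective _ hbij').symm.symm (Finsupp.single i 1) = v i
    simp
  refine ⟨b, Module.Basis.eq_of_apply_eq fun i => ?_⟩
  rw [← hv i, ← hb i]
  exact Algebra.TensorProduct.basis_apply b i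

theorem toMatrix_map_symm {k : Type} [Field k] {ρ₁ ρ₂ : ResidualGaloisRep k}
    (e : ResidualGaloisRep.Equiv ρ₁ ρ₂) (c : Module.Basis (Fin 2) k ρ₂.V) (g : GQ) :
    LinearMap.toMatrix (c.map e.toLinearEquiv.symm) (c.map e.toLinearEquiv.symm) (ρ₁.ρ g) =
      LinearMap.toMatrix c c (ρ₂.ρ g) := by
  ext i j
  simp only [LinearMap.toMatrix_apply, Module.Basis.map_apply, Module.Basis.map_repr,
    LinearEquiv.trans_apply, LinearEquiv.symm_symm]
  rw [e.map_apply, LinearEquiv.apply_symm_apply]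

/-- A lift with residual representation `ρbar` has a basis with matrices lifting `ρbar`. -/
theorem exists_basis_isLiftMat [IsLocalHom (algebraMap 𝒪 A)] (ρ : GaloisRepAdic A)
    (h : ρ.residual.IsEquiv (ρbar.baseChangeAlong (ResidueField.map (algebraMap 𝒪 A)))) :
    ∃ b : Module.Basis (Fin 2) A ρ.V, IsLiftMat F (matOf ρ b) := by
  obtain ⟨e⟩ := h
  let c : Module.Basis (Fin 2) (ResidueField A) ρ.residual.V :=
    (basisBaseChangeAlongRes (ResidueField.map (algebraMap 𝒪 A)) ρbar F.b).map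
      e.toLinearEquiv.symm
  obtain ⟨b, hb⟩ := exists_lift_basis (V := ρ.V) c
  have hcb : basisResidual ρ b = c := hb
  refine ⟨b, fun g i j => ?_⟩
  rw [← residue_eq_zero_iff, map_sub, sub_eq_zero]
  have h3 := congrFun (congrFun (toMatrix_residual ρ b g) i) j
  rw [Matrix.map_apply, hcb, toMatrix_map_symm, toMatrix_baseChangeAlongRes, Matrix.map_apply,
    ← F.lift_spec, ResidueField.map_residue] at h3
  rw [matOf_apply]
  exact h3.symm

/-- Conjugation of a matrix representation. -/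
def conjMat (P : (Matrix (Fin 2) (Fin 2) A)ˣ) (r : GQ →* Matrix (Fin 2) (Fin 2) A) :
    GQ →* Matrix (Fin 2) (Fin 2) A where
  toFun g := (P⁻¹ : (Matrix (Fin 2) (Fin 2) A)ˣ) * r g * (P : Matrix (Fin 2) (Fin 2) A)
  map_one' := by simp
  map_mul' g h := by
    have h1 : (P : Matrix (Fin 2) (Fin 2) A) * ((P⁻¹ : (Matrix (Fin 2) (Fin 2) A)ˣ) :
      Matrix (Fin 2) (Fin 2) A) = 1 := by simp
    calc _ = ((P⁻¹ : (Matrix (Fin 2) (Fin 2) A)ˣ) : Matrix (Fin 2) (Fin 2) A) * r g * 1 * r h *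
          (P : Matrix (Fin 2) (Fin 2) A) := by rw [map_mul]; noncomm_ring
      _ = _ := by rw [← h1]; noncomm_ring

theorem conjMat_apply (P : (Matrix (Fin 2) (Fin 2) A)ˣ) (r : GQ →* Matrix (Fin 2) (Fin 2) A)
    (g : GQ) : conjMat P r g =
      ((P⁻¹ : (Matrix (Fin 2) (Fin 2) A)ˣ) : Matrix (Fin 2) (Fin 2) A) * r g *
        (P : Matrix (Fin 2) (Fin 2) A) := rfl

theorem mul_entries_mem {I : Ideal A} {M N : Matrix (Fin 2) (Fin 2) A}
    (h : ∀ i j, M i j ∈ I) (i j : Fin 2) : (N * M) i j ∈ I := by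
  rw [Matrix.mul_apply]
  exact Ideal.sum_mem _ fun l _ => Ideal.mul_mem_left _ _ (h l j)

theorem mul_entries_mem' {I : Ideal A} {M N : Matrix (Fin 2) (Fin 2) A}
    (h : ∀ i j, M i j ∈ I) (i j : Fin 2) : (M * N) i j ∈ I := by
  rw [Matrix.mul_apply]
  exact Ideal.sum_mem _ fun l _ => Ideal.mul_mem_right _ _ (h i l)

theorem isContMat_conjMat (P : (Matrix (Fin 2) (Fin 2) A)ˣ)
    {r : GQ →* Matrix (Fin 2) (Fin 2) A} (hr : IsContMat r) : IsContMat (conjMat P r) := by
  intro n
  obtain ⟨L, hL, h⟩ := hr n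
  refine ⟨L, hL, fun σ hσ i j => ?_⟩
  have h1 : conjMat P r σ - 1 = ((P⁻¹ : (Matrix (Fin 2) (Fin 2) A)ˣ) : Matrix (Fin 2) (Fin 2) A) *
      (r σ - 1) * (P : Matrix (Fin 2) (Fin 2) A) := by
    rw [conjMat_apply, mul_sub, sub_mul, mul_one, Units.inv_mul]
  rw [h1]
  exact mul_entries_mem' (fun i j => mul_entries_mem (h σ hσ) i j) i j

theorem isEquiv_conjMat (P : (Matrix (Fin 2) (Fin 2) A)ˣ)
    {r : GQ →* Matrix (Fin 2) (Fin 2) A} (hr : IsContMat r) (hr' : IsContMat (conjMat P r)) :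
    (ofMat r hr).IsEquiv (ofMat (conjMat P r) hr') := by
  let e : (Fin 2 → A) ≃ₗ[A] (Fin 2 → A) := LinearEquiv.ofLinearMap
    (Matrix.toLin' ((P⁻¹ : (Matrix (Fin 2) (Fin 2) A)ˣ) : Matrix (Fin 2) (Fin 2) A))
    (Matrix.toLin' (P : Matrix (Fin 2) (Fin 2) A))
    (by rw [← Matrix.toLin'_mul, Units.inv_mul, Matrix.toLin'_one])
    (by rw [← Matrix.toLin'_mul, Units.mul_inv, Matrix.toLin'_one])
  have key : ∀ (σ : GQ) (x : Fin 2 → A), e (Matrix.toLin' (r σ) x) =
      Matrix.toLin' (conjMat P r σ) (e x) := by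
    intro σ x
    show Matrix.toLin' _ (Matrix.toLin' (r σ) x) = Matrix.toLin' (conjMat P r σ)
      (Matrix.toLin' _ x)
    rw [← LinearMap.comp_apply, ← LinearMap.comp_apply, ← Matrix.toLin'_mul, ← Matrix.toLin'_mul,
      conjMat_apply, mul_assoc, Units.mul_inv, mul_one]
  exact ⟨⟨e, key⟩⟩

/-- **Existence of normalised representatives**, over a Henselian local algebra. -/
theorem exists_isNorm_conj [IsLocalHom (algebraMap 𝒪 A)] [HenselianRing A (maximalIdeal A)]
    {r : GQ →* Matrix (Fin 2) (Fin 2) A} (hc : IsContMat r) (hr : IsLiftMat F r) :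
    ∃ P : (Matrix (Fin 2) (Fin 2) A)ˣ, IsNorm F (conjMat P r) := by
  obtain ⟨a, ha⟩ : ∃ a, a = comb F.α r := ⟨_, rfl⟩
  obtain ⟨b, hb⟩ : ∃ b, b = comb F.β r := ⟨_, rfl⟩
  have hα := comb_α_sub_mem F hr
  have hβ := comb_β_sub_mem F hr
  rw [← ha] at hα
  rw [← hb] at hβ
  have a00 : a 0 0 - 1 ∈ maximalIdeal A := by simpa using hα 0 0
  have a01 : a 0 1 ∈ maximalIdeal A := by simpa using hα 0 1
  have a10 : a 1 0 ∈ maximalIdeal A := by simpa using hα 1 0
  have a11 : a 1 1 ∈ maximalIdeal A := by simpa using hα 1 1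
  have b00 : b 0 0 ∈ maximalIdeal A := by simpa using hβ 0 0
  have b01 : b 0 1 ∈ maximalIdeal A := by simpa using hβ 0 1
  have b10 : b 1 0 - 1 ∈ maximalIdeal A := by simpa using hβ 1 0
  have b11 : b 1 1 ∈ maximalIdeal A := by simpa using hβ 1 1
  -- Hensel's lemma
  obtain ⟨l, hl, hl1⟩ : ∃ l : A, l ^ 2 - (a 0 0 + a 1 1) * l + (a 0 0 * a 1 1 - a 0 1 * a 1 0) = 0 ∧
      l - 1 ∈ maximalIdeal A := by
    open Polynomial in
    let f : Polynomial A := X ^ 2 - C (a 0 0 + a 1 1) * X + C (a 0 0 * a 1 1 - a 0 1 * a 1 0)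
    have hf : f.Monic := by
      have : f = X ^ 2 + (- (C (a 0 0 + a 1 1)) * X + C (a 0 0 * a 1 1 - a 0 1 * a 1 0)) := by
        simp only [f]; ring
      rw [this]
      refine Polynomial.monic_X_pow_add ?_
      refine lt_of_le_of_lt (Polynomial.degree_add_le _ _) (max_lt ?_ ?_)
      · rw [← C_neg]
        exact lt_of_le_of_lt (Polynomial.degree_C_mul_X_le _) (by norm_num)
      · exact lt_of_le_of_lt Polynomial.degree_C_le (by norm_num)
    obtain ⟨l, hl, hl1⟩ := HenselianRing.is_henselian (I := maximalIdeal A) f hf 1 (by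
      simp only [f, eval_add, eval_sub, eval_pow, eval_X, eval_mul, eval_C]
      have h1 := Ideal.add_mem _ (Ideal.add_mem _ (Ideal.neg_mem_iff _ |>.mpr a00)
        (Ideal.neg_mem_iff _ |>.mpr a11)) (Ideal.sub_mem _ (Ideal.mul_mem_left _ (a 0 0) a11)
          (Ideal.mul_mem_left _ (a 0 1) a10))
      convert h1 using 1
      ring) (by
      have h1 : eval 1 (derivative f) = 1 - ((a 0 0 - 1) + a 1 1) := by
        simp only [f, derivative_add, derivative_sub, derivative_X_pow, derivative_mul,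
          derivative_C, derivative_X, eval_add, eval_sub, eval_mul, eval_C, eval_X, eval_pow]
        norm_num
        ring
      rw [h1, map_sub, Ideal.Quotient.eq_zero_iff_mem.mpr (Ideal.add_mem _ a00 a11)]
      simp)
    refine ⟨l, ?_, hl1⟩
    simp only [f, IsRoot, eval_add, eval_sub, eval_pow, eval_X, eval_mul, eval_C] at hl
    exact hl
  -- the new basis
  obtain ⟨v0, hv0⟩ : ∃ v0, v0 = a 0 0 - (a 0 0 + a 1 1 - l) := ⟨_, rfl⟩
  obtain ⟨v1, hv1⟩ : ∃ v1, v1 = a 1 0 := ⟨_, rfl⟩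
  obtain ⟨w0, hw0⟩ : ∃ w0, w0 = b 0 0 * v0 + b 0 1 * v1 := ⟨_, rfl⟩
  obtain ⟨w1, hw1⟩ : ∃ w1, w1 = b 1 0 * v0 + b 1 1 * v1 := ⟨_, rfl⟩
  have hv0m : v0 - 1 ∈ maximalIdeal A := by
    have := Ideal.sub_mem _ hl1 a11
    convert this using 1
    rw [hv0]; ring
  have hv1m : v1 ∈ maximalIdeal A := by rw [hv1]; exact a10
  have hw0m : w0 ∈ maximalIdeal A := by
    rw [hw0]
    exact Ideal.add_mem _ (Ideal.mul_mem_right _ _ b00) (Ideal.mul_mem_left _ _ hv1m)
  have hw1m : w1 - 1 ∈ maximalIdeal A := by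
    have := Ideal.add_mem _ (Ideal.add_mem _ (Ideal.mul_mem_left _ (b 1 0) hv0m) b10)
      (Ideal.mul_mem_left _ (b 1 1) hv1m)
    convert this using 1
    rw [hw1]; ring
  let P₀ : Matrix (Fin 2) (Fin 2) A := !![v0, w0; v1, w1]
  have hdet : IsUnit P₀.det := by
    rw [Matrix.det_fin_two_of]
    by_contra hcon
    have hcon' : v0 * w1 - w0 * v1 ∈ maximalIdeal A := hcon
    have h1 : (1 : A) ∈ maximalIdeal A := by
      have := Ideal.sub_mem _ hcon' (Ideal.sub_mem _ (Ideal.add_mem _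
        (Ideal.mul_mem_left _ v0 hw1m) hv0m) (Ideal.mul_mem_left _ w0 hv1m))
      convert this using 1
      ring
    exact (Ideal.ne_top_iff_one _).mp (Ideal.IsMaximal.ne_top inferInstance) h1
  obtain ⟨P, hP⟩ := (Matrix.isUnit_iff_isUnit_det P₀).mpr hdet
  have hP1 : ∀ i j, ((P : Matrix (Fin 2) (Fin 2) A) - 1) i j ∈ maximalIdeal A := by
    rw [hP]
    intro i j
    fin_cases i <;> fin_cases j <;> simp [P₀, hv0m, hv1m, hw0m, hw1m]
  have hcomb : ∀ c : GQ →₀ 𝒪, (P : Matrix (Fin 2) (Fin 2) A) * comb c (conjMat P r) =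
      comb c r * (P : Matrix (Fin 2) (Fin 2) A) := by
    intro c
    refine mul_comb c _ _ _ _ fun g => ?_
    rw [conjMat_apply, ← mul_assoc, ← mul_assoc, Units.mul_inv, one_mul]
  refine ⟨P, isContMat_conjMat P hc, ?_, ?_, ?_, ?_⟩
  · -- residual
    intro g i j
    have h1 : conjMat P r g - r g = ((P⁻¹ : (Matrix (Fin 2) (Fin 2) A)ˣ) :
        Matrix (Fin 2) (Fin 2) A) * (r g * ((P : Matrix (Fin 2) (Fin 2) A) - 1) -
          ((P : Matrix (Fin 2) (Fin 2) A) - 1) * r g) := by
      have h2 : r g * ((P : Matrix (Fin 2) (Fin 2) A) - 1) -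
          ((P : Matrix (Fin 2) (Fin 2) A) - 1) * r g =
          r g * (P : Matrix (Fin 2) (Fin 2) A) - (P : Matrix (Fin 2) (Fin 2) A) * r g := by
        noncomm_ring
      rw [h2, mul_sub, conjMat_apply, ← mul_assoc, ← mul_assoc, Units.inv_mul, one_mul]
    have h2 : (conjMat P r g - r g) i j ∈ maximalIdeal A := by
      rw [h1]
      refine mul_entries_mem (fun i j => ?_) i j
      rw [Matrix.sub_apply]
      exact Ideal.sub_mem _ (mul_entries_mem hP1 i j) (mul_entries_mem' hP1 i j)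
    have h3 := Ideal.add_mem _ h2 (hr g i j)
    rw [Matrix.sub_apply] at h3
    convert h3 using 1
    ring
  · have e0 := congrFun (congrFun (hcomb F.α) 0) 0
    have e1 := congrFun (congrFun (hcomb F.α) 1) 0
    simp only [Matrix.mul_apply, Fin.sum_univ_two] at e0 e1
    rw [← ha, hP] at e0 e1
    simp only [P₀, Matrix.of_apply, Matrix.cons_val', Matrix.cons_val_zero, Matrix.cons_val_one,
      Matrix.cons_val_fin_one] at e0 e1
    refine (hdet.mul_right_eq_zero).mp ?_
    rw [Matrix.det_fin_two_of]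
    have l0 : a 0 0 * v0 + a 0 1 * v1 = l * v0 := by
      rw [hv0, hv1]; linear_combination -hl
    have l1 : a 1 0 * v0 + a 1 1 * v1 = l * v1 := by
      rw [hv0, hv1]; ring
    linear_combination v0 * e1 - v1 * e0 + v0 * l1 - v1 * l0
  · have e0 := congrFun (congrFun (hcomb F.β) 0) 0
    have e1 := congrFun (congrFun (hcomb F.β) 1) 0
    simp only [Matrix.mul_apply, Fin.sum_univ_two] at e0 e1
    rw [← hb, hP] at e0 e1
    simp only [P₀, Matrix.of_apply, Matrix.cons_val', Matrix.cons_val_zero, Matrix.cons_val_one,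
      Matrix.cons_val_fin_one] at e0 e1
    refine (hdet.mul_right_eq_zero).mp ?_
    rw [Matrix.det_fin_two_of]
    linear_combination w1 * e0 - w0 * e1 - w1 * hw0 + w0 * hw1
  · have e0 := congrFun (congrFun (hcomb F.β) 0) 0
    have e1 := congrFun (congrFun (hcomb F.β) 1) 0
    simp only [Matrix.mul_apply, Fin.sum_univ_two] at e0 e1
    rw [← hb, hP] at e0 e1
    simp only [P₀, Matrix.of_apply, Matrix.cons_val', Matrix.cons_val_zero, Matrix.cons_val_one,
      Matrix.cons_val_fin_one] at e0 e1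
    rw [← sub_eq_zero]
    refine (hdet.mul_right_eq_zero).mp ?_
    rw [Matrix.det_fin_two_of]
    linear_combination v0 * e1 - v1 * e0 - v0 * hw1 + v1 * hw0

/-- Existence and uniqueness of the normalised matrix representation of a lift of `ρbar`. -/
theorem exists_isNorm [IsLocalHom (algebraMap 𝒪 A)] [HenselianRing A (maximalIdeal A)]
    (ρ : GaloisRepAdic A)
    (h : ρ.residual.IsEquiv (ρbar.baseChangeAlong (ResidueField.map (algebraMap 𝒪 A)))) :
    ∃ (r : GQ →* Matrix (Fin 2) (Fin 2) A) (hr : IsNorm F r), ρ.IsEquiv (ofMat r hr.cont) := by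
  obtain ⟨b, hb⟩ := exists_basis_isLiftMat F ρ h
  obtain ⟨P, hP⟩ := exists_isNorm_conj F (isContMat_matOf ρ b) hb
  refine ⟨_, hP, ?_⟩
  obtain ⟨e₁⟩ := isEquiv_ofMat_matOf ρ b
  obtain ⟨e₂⟩ := isEquiv_conjMat P (isContMat_matOf ρ b) hP.cont
  exact ⟨e₁.trans e₂⟩

end Exists

end Fermat.Agent.UnivDef
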