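import Mathlib

/-!
# `MvPowerSeries σ 𝒪` is complete for its maximal ideal when `𝒪` is
-/

set_option autoImplicit false
set_option linter.style.haveILetI false
set_option linter.unusedSectionVars false

noncomputable section

open IsLocalRing MvPowerSeries Finsupp

namespace Fermat.Agent.UnivDef

variable {𝒪 : Type*} [CommRing 𝒪] [IsLocalRing 𝒪] {σ : Type*} [Fintype σ]

/-- The filtration of `MvPowerSeries σ 𝒪` by powers of the maximal ideal, in terms of
coefficients. -/
def filt (n : ℕ) : Ideal (MvPowerSeries σ 𝒪) where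
  carrier := {f | ∀ e : σ →₀ ℕ, coeff e f ∈ maximalIdeal 𝒪 ^ (n - degree e)}
  add_mem' := fun {a b} ha hb e => by rw [map_add]; exact Ideal.add_mem _ (ha e) (hb e)
  zero_mem' := fun e => by rw [map_zero]; exact Ideal.zero_mem _
  smul_mem' := fun c f hf e => by
    classical
    rw [smul_eq_mul, coeff_mul]
    refine Ideal.sum_mem _ fun p hp => Ideal.mul_mem_left _ _ ?_
    refine Ideal.pow_le_pow_right ?_ (hf p.2)
    rw [Finset.HasAntidiagonal.mem_antidiagonal] at hp
    have : degree p.1 + degree p.2 = degree e := by rw [← hp, map_add]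
    omega

theorem mem_filt {n : ℕ} {f : MvPowerSeries σ 𝒪} :
    f ∈ filt n ↔ ∀ e : σ →₀ ℕ, coeff e f ∈ maximalIdeal 𝒪 ^ (n - degree e) := Iff.rfl

theorem filt_mul_filt (a b : ℕ) :
    filt (σ := σ) (𝒪 := 𝒪) a * filt b ≤ filt (a + b) := by
  classical
  rw [Ideal.mul_le]
  intro f hf g hg e
  rw [coeff_mul]
  refine Ideal.sum_mem _ fun p hp => ?_
  rw [Finset.HasAntidiagonal.mem_antidiagonal] at hp
  have h1 : degree p.1 + degree p.2 = degree e := by rw [← hp, map_add]
  have h2 := Ideal.mul_mem_mul (hf p.1) (hg p.2)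
  rw [← pow_add] at h2
  exact Ideal.pow_le_pow_right (by omega) h2

theorem maximalIdeal_le_filt_one : maximalIdeal (MvPowerSeries σ 𝒪) ≤ filt 1 := by
  intro f hf e
  by_cases he : e = 0
  · subst he
    simp only [map_zero, Nat.sub_zero, pow_one]
    rw [coeff_zero_eq_constantCoeff_apply]
    intro h
    exact hf (isUnit_iff_constantCoeff.mpr h)
  · have : 1 - degree e = 0 := by
      have : degree e ≠ 0 := fun h => he ((Finsupp.degree_eq_zero_iff e).mp h)
      omega
    rw [this, pow_zero, Ideal.one_eq_top]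
    exact Submodule.mem_top

theorem pow_le_filt (n : ℕ) : maximalIdeal (MvPowerSeries σ 𝒪) ^ n ≤ filt n := by
  induction n with
  | zero =>
    intro f _ e
    simp
  | succ n ih =>
    rw [pow_succ]
    exact (Ideal.mul_mono ih maximalIdeal_le_filt_one).trans (filt_mul_filt n 1)

theorem C_mem_pow {n : ℕ} {c : 𝒪} (hc : c ∈ maximalIdeal 𝒪 ^ n) :
    (C c : MvPowerSeries σ 𝒪) ∈ maximalIdeal (MvPowerSeries σ 𝒪) ^ n := by
  have h1 : (maximalIdeal 𝒪).map (C : 𝒪 →+* MvPowerSeries σ 𝒪) ≤
      maximalIdeal (MvPowerSeries σ 𝒪) := by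
    rw [Ideal.map_le_iff_le_comap]
    intro x hx
    rw [Ideal.mem_comap]
    intro h
    have := isUnit_iff_constantCoeff.mp h
    rw [constantCoeff_C] at this
    exact hx this
  refine Ideal.pow_right_mono h1 n ?_
  rw [← Ideal.map_pow]
  exact Ideal.mem_map_of_mem _ hc

theorem X_mem_maximalIdeal (i : σ) :
    (X i : MvPowerSeries σ 𝒪) ∈ maximalIdeal (MvPowerSeries σ 𝒪) := by
  intro h
  have := isUnit_iff_constantCoeff.mp h
  rw [constantCoeff_X] at this
  exact not_isUnit_zero this

theorem coeff_X_mul' (i : σ) (g : MvPowerSeries σ 𝒪) (e : σ →₀ ℕ) :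
    coeff e (X i * g) = if e i = 0 then 0 else coeff (e - single i 1) g := by
  classical
  rw [X, coeff_monomial_mul]
  by_cases h : e i = 0
  · rw [if_pos h, if_neg]
    rw [Finsupp.single_le_iff, h]
    omega
  · rw [if_neg h, if_pos, one_mul]
    rw [Finsupp.single_le_iff]
    omega

theorem exists_decomp (f : MvPowerSeries σ 𝒪) : ∃ g : σ → MvPowerSeries σ 𝒪,
    f = C (constantCoeff f) + ∑ i, X i * g i ∧
      ∀ i e, coeff e (g i) = 0 ∨ coeff e (g i) = coeff (e + single i 1) f := by
  classical
  have hpick : ∀ e : σ →₀ ℕ, e ≠ 0 → ∃ i, e i ≠ 0 := fun e he => by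
    by_contra h
    push Not at h
    exact he (Finsupp.ext h)
  let pick : (σ →₀ ℕ) → Option σ := fun e => if h : e = 0 then none else some (hpick e h).choose
  have hpick0 : pick 0 = none := by simp [pick]
  have hpick1 : ∀ e, e ≠ 0 → ∃ i, pick e = some i ∧ e i ≠ 0 := fun e he =>
    ⟨(hpick e he).choose, by simp [pick, he], (hpick e he).choose_spec⟩
  let g : σ → MvPowerSeries σ 𝒪 := fun i e =>
    if pick (e + single i 1) = some i then coeff (e + single i 1) f else 0
  have hg : ∀ i e, coeff e (g i) =
      if pick (e + single i 1) = some i then coeff (e + single i 1) f else 0 := fun i e => rfl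
  refine ⟨g, ?_, ?_⟩
  · ext e
    rw [map_add, map_sum, coeff_C]
    by_cases he : e = 0
    · subst he
      rw [if_pos rfl, coeff_zero_eq_constantCoeff_apply, Finset.sum_eq_zero, add_zero]
      intro i _
      rw [coeff_X_mul', if_pos]
      rfl
    · rw [if_neg he, zero_add]
      obtain ⟨i, hi, hei⟩ := hpick1 e he
      rw [Finset.sum_eq_single i]
      · rw [coeff_X_mul', if_neg hei, hg]
        have h1 : e - single i 1 + single i 1 = e := by
          refine tsub_add_cancel_of_le ?_
          rw [Finsupp.single_le_iff]; omega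
        rw [h1, if_pos hi]
      · intro j _ hj
        rw [coeff_X_mul']
        by_cases hej : e j = 0
        · rw [if_pos hej]
        · rw [if_neg hej, hg]
          have h1 : e - single j 1 + single j 1 = e := by
            refine tsub_add_cancel_of_le ?_
            rw [Finsupp.single_le_iff]; omega
          rw [h1, if_neg]
          rw [hi]
          exact fun h => hj (Option.some.inj h).symm
      · intro h
        exact absurd (Finset.mem_univ i) h
  · intro i e
    rw [hg]
    split_ifs with h
    · exact Or.inr rfl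
    · exact Or.inl rfl

theorem filt_le_pow (n : ℕ) : filt n ≤ maximalIdeal (MvPowerSeries σ 𝒪) ^ n := by
  induction n with
  | zero => simp
  | succ n ih =>
    intro f hf
    obtain ⟨g, hg, hg'⟩ := exists_decomp f
    rw [hg]
    refine Ideal.add_mem _ ?_ (Ideal.sum_mem _ fun i _ => ?_)
    · refine C_mem_pow ?_
      have := hf 0
      simpa [coeff_zero_eq_constantCoeff_apply] using this
    · rw [pow_succ']
      refine Ideal.mul_mem_mul (X_mem_maximalIdeal i) (ih ?_)
      intro e
      rcases hg' i e with h | h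
      · rw [h]; exact Ideal.zero_mem _
      · rw [h]
        have h1 := hf (e + single i 1)
        rw [map_add, Finsupp.degree_single] at h1
        have h2 : n + 1 - (degree e + 1) = n - degree e := by omega
        rwa [h2] at h1

theorem filt_eq_pow (n : ℕ) : filt n = maximalIdeal (MvPowerSeries σ 𝒪) ^ n :=
  le_antisymm (filt_le_pow n) (pow_le_filt n)

instance isAdicComplete_mvPowerSeries [IsAdicComplete (maximalIdeal 𝒪) 𝒪] :
    IsAdicComplete (maximalIdeal (MvPowerSeries σ 𝒪)) (MvPowerSeries σ 𝒪) where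
  haus' := by
    intro f hf
    ext e
    rw [map_zero]
    refine IsHausdorff.haus' (I := maximalIdeal 𝒪) _ fun n => ?_
    have h1 := hf (n + degree e)
    rw [SModEq.zero, smul_eq_mul, Ideal.mul_top, ← filt_eq_pow] at h1
    rw [SModEq.zero, smul_eq_mul, Ideal.mul_top]
    have h2 := h1 e
    rwa [Nat.add_sub_cancel] at h2
  prec' := by
    intro f hf
    have h1 : ∀ e : σ →₀ ℕ, ∃ L : 𝒪, ∀ n, coeff e (f (n + degree e)) ≡ L
        [SMOD (maximalIdeal 𝒪 ^ n • ⊤ : Submodule 𝒪 𝒪)] := by
      intro e
      refine IsPrecomplete.prec' (fun n => coeff e (f (n + degree e))) ?_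
      intro m n hmn
      have h2 := hf (show m + degree e ≤ n + degree e by omega)
      rw [SModEq.sub_mem, smul_eq_mul, Ideal.mul_top, ← filt_eq_pow] at h2
      rw [SModEq.sub_mem, smul_eq_mul, Ideal.mul_top, ← map_sub]
      have h3 := h2 e
      rwa [Nat.add_sub_cancel] at h3
    choose L hL using h1
    let Lf : MvPowerSeries σ 𝒪 := fun e => L e
    have hLf : ∀ e, coeff e Lf = L e := fun e => rfl
    refine ⟨Lf, fun n => ?_⟩
    rw [SModEq.sub_mem, smul_eq_mul, Ideal.mul_top, ← filt_eq_pow]
    intro e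
    rw [map_sub, hLf]
    by_cases he : degree e ≤ n
    · have h2 := hL e (n - degree e)
      rw [Nat.sub_add_cancel he, SModEq.sub_mem, smul_eq_mul, Ideal.mul_top] at h2
      exact h2
    · have h3 : n - degree e = 0 := by omega
      rw [h3, pow_zero, Ideal.one_eq_top]
      exact Submodule.mem_top

end Fermat.Agent.UnivDef
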