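import Mathlib
import Fermat.Prelude.Def_GaloisRep_Adic
import Fermat.Prelude.Def_GaloisRep_DeformationCondition
import Fermat.Agent.UnivDef.NormalExists

/-!
# Admissible ideals of the universal polynomial ring
-/

set_option autoImplicit false
set_option linter.style.haveILetI false
set_option linter.unusedSectionVars false

noncomputable section

open scoped TensorProduct
open IsLocalRing GaloisRep

namespace Fermat.Agent.UnivDef

local notation "GQ" => (AlgebraicClosure ℚ ≃ₐ[ℚ] AlgebraicClosure ℚ)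

/-- The polynomial ring on the universal matrix entries. -/
abbrev URing (𝒪 : Type) [CommRing 𝒪] : Type := MvPolynomial (GQ × Fin 2 × Fin 2) 𝒪

variable {𝒪 : Type} [CommRing 𝒪] [IsLocalRing 𝒪]

/-- Evaluation at a family of matrices. -/
def ev {A : Type} [CommRing A] [Algebra 𝒪 A] (r : GQ → Matrix (Fin 2) (Fin 2) A) :
    URing 𝒪 →ₐ[𝒪] A := MvPolynomial.aeval fun x => r x.1 x.2.1 x.2.2

@[simp] theorem ev_X {A : Type} [CommRing A] [Algebra 𝒪 A] (r : GQ → Matrix (Fin 2) (Fin 2) A)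
    (g : GQ) (i j : Fin 2) : ev r (MvPolynomial.X (g, i, j) : URing 𝒪) = r g i j := by
  simp [ev]

theorem algHom_ext_X {A : Type} [CommRing A] [Algebra 𝒪 A] {φ ψ : URing 𝒪 →ₐ[𝒪] A}
    (h : ∀ g i j, φ (MvPolynomial.X (g, i, j)) = ψ (MvPolynomial.X (g, i, j))) : φ = ψ :=
  MvPolynomial.algHom_ext fun x => h x.1 x.2.1 x.2.2

variable (𝒪) in
/-- The universal matrices. -/
def univMat (g : GQ) : Matrix (Fin 2) (Fin 2) (URing 𝒪) :=
  Matrix.of fun i j => MvPolynomial.X (g, i, j)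

@[simp] theorem univMat_apply (g : GQ) (i j : Fin 2) :
    univMat 𝒪 g i j = MvPolynomial.X (g, i, j) := rfl

theorem comb_univMat_map {A : Type} [CommRing A] [Algebra 𝒪 A] (φ : URing 𝒪 →ₐ[𝒪] A)
    (c : GQ →₀ 𝒪) (r : GQ → Matrix (Fin 2) (Fin 2) A)
    (h : ∀ g i j, r g i j = φ (MvPolynomial.X (g, i, j))) (i j : Fin 2) :
    comb c r i j = φ (comb c (univMat 𝒪) i j) :=
  comb_map φ c _ _ (fun g i j => h g i j) i j

variable {ρbar : ResidualGaloisRep (ResidueField 𝒪)} (F : FrameData 𝒪 ρbar)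

/-- The augmentation of the universal polynomial ring. -/
def aug : URing 𝒪 →ₐ[𝒪] ResidueField 𝒪 :=
  MvPolynomial.aeval fun x => residue 𝒪 (F.lift x.1 x.2.1 x.2.2)

@[simp] theorem aug_X (g : GQ) (i j : Fin 2) :
    aug F (MvPolynomial.X (g, i, j)) = residue 𝒪 (F.lift g i j) := by simp [aug]

theorem aug_algebraMap (c : 𝒪) : aug F (algebraMap 𝒪 (URing 𝒪) c) = residue 𝒪 c :=
  (aug F).commutes c

theorem aug_surjective : Function.Surjective (aug F) := fun x => by
  obtain ⟨c, rfl⟩ := residue_surjective x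
  exact ⟨algebraMap 𝒪 _ c, aug_algebraMap F c⟩

/-- The maximal ideal of the universal polynomial ring. -/
def m0 : Ideal (URing 𝒪) := RingHom.ker (aug F)

instance m0_isMaximal : (m0 F).IsMaximal :=
  RingHom.ker_isMaximal_of_surjective _ (aug_surjective F)

theorem mem_m0 {u : URing 𝒪} : u ∈ m0 F ↔ aug F u = 0 := RingHom.mem_ker

/-- `IsLiftMat` in terms of `ev`. -/
theorem ev_mem_maximalIdeal_iff {A : Type} [CommRing A] [IsLocalRing A] [Algebra 𝒪 A]
    [IsLocalHom (algebraMap 𝒪 A)] {r : GQ → Matrix (Fin 2) (Fin 2) A}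
    (hr : ∀ g i j, r g i j - algebraMap 𝒪 A (F.lift g i j) ∈ maximalIdeal A) (u : URing 𝒪) :
    ev r u ∈ maximalIdeal A ↔ u ∈ m0 F := by
  have h1 : (residue A).comp ((ev r : URing 𝒪 →ₐ[𝒪] A) : URing 𝒪 →+* A) =
      (ResidueField.map (algebraMap 𝒪 A)).comp (aug F : URing 𝒪 →+* ResidueField 𝒪) := by
    refine MvPolynomial.ringHom_ext (fun c => ?_) (fun x => ?_)
    · have e1 : ev r (MvPolynomial.C c : URing 𝒪) = algebraMap 𝒪 A c := (ev r).commutes c
      have e2 : aug F (MvPolynomial.C c) = residue 𝒪 c := aug_algebraMap F c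
      simp only [RingHom.comp_apply, RingHom.coe_coe]
      rw [e1, e2, ResidueField.map_residue]
    · obtain ⟨g, i, j⟩ := x
      simp only [RingHom.comp_apply, RingHom.coe_coe]
      rw [ev_X, aug_X, ResidueField.map_residue, ← sub_eq_zero, ← map_sub, residue_eq_zero_iff]
      exact hr g i j
  have h2 := RingHom.congr_fun h1 u
  simp only [RingHom.comp_apply, RingHom.coe_coe] at h2
  rw [← residue_eq_zero_iff, h2, mem_m0, map_eq_zero]

/-- The algebraic conditions defining admissible ideals (without the deformation condition). -/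
structure Pre (J : Ideal (URing 𝒪)) : Prop where
  le : J ≤ m0 F
  nil : ∃ n, m0 F ^ n ≤ J
  fin : Finite (URing 𝒪 ⧸ J)
  rel_mul : ∀ g h i j, (univMat 𝒪 (g * h) - univMat 𝒪 g * univMat 𝒪 h) i j ∈ J
  rel_one : ∀ i j, (univMat 𝒪 1 - 1) i j ∈ J
  rel_cont : ∃ L : IntermediateField ℚ (AlgebraicClosure ℚ), FiniteDimensional ℚ L ∧
    ∀ σ : GQ, (∀ x ∈ L, σ x = x) → ∀ i j, (univMat 𝒪 σ - 1) i j ∈ J
  n1 : comb F.α (univMat 𝒪) 1 0 ∈ J
  n2 : comb F.β (univMat 𝒪) 0 0 ∈ J
  n3 : comb F.β (univMat 𝒪) 1 0 - 1 ∈ J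

variable {F}

theorem Pre.isLocalRing {J : Ideal (URing 𝒪)} (h : Pre F J) : IsLocalRing (URing 𝒪 ⧸ J) := by
  refine IsLocalRing.of_unique_max_ideal ⟨(m0 F).map (Ideal.Quotient.mk J), ?_, ?_⟩
  · exact Ideal.IsMaximal.map_of_surjective_of_ker_le Ideal.Quotient.mk_surjective
      (by rw [Ideal.mk_ker]; exact h.le)
  · intro N hN
    obtain ⟨n, hn⟩ := h.nil
    have h1 : (N.comap (Ideal.Quotient.mk J)).IsPrime := by
      haveI := hN.isPrime
      infer_instance
    have h2 : m0 F ^ n ≤ N.comap (Ideal.Quotient.mk J) := by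
      refine hn.trans ?_
      conv_lhs => rw [← Ideal.mk_ker (I := J)]
      exact Ideal.comap_mono bot_le
    have h3 : m0 F ≤ N.comap (Ideal.Quotient.mk J) := h1.le_of_pow_le h2
    have h4 := (m0_isMaximal F).eq_of_le h1.ne_top h3
    rw [h4, Ideal.map_comap_of_surjective _ Ideal.Quotient.mk_surjective]

theorem Pre.maximalIdeal_eq {J : Ideal (URing 𝒪)} (h : Pre F J) :
    haveI := h.isLocalRing
    maximalIdeal (URing 𝒪 ⧸ J) = (m0 F).map (Ideal.Quotient.mk J) := by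
  haveI := h.isLocalRing
  have : ((m0 F).map (Ideal.Quotient.mk J)).IsMaximal :=
    Ideal.IsMaximal.map_of_surjective_of_ker_le Ideal.Quotient.mk_surjective
      (by rw [Ideal.mk_ker]; exact h.le)
  exact (IsLocalRing.eq_maximalIdeal this).symm

theorem Pre.mk_mem_maximalIdeal {J : Ideal (URing 𝒪)} (h : Pre F J) (u : URing 𝒪) :
    haveI := h.isLocalRing
    Ideal.Quotient.mk J u ∈ maximalIdeal (URing 𝒪 ⧸ J) ↔ u ∈ m0 F := by
  haveI := h.isLocalRing
  rw [h.maximalIdeal_eq, ← Ideal.mem_comap, Ideal.comap_map_of_surjective' _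
    Ideal.Quotient.mk_surjective, Ideal.mk_ker, sup_eq_left.mpr h.le]

theorem Pre.test {J : Ideal (URing 𝒪)} (h : Pre F J) :
    haveI := h.isLocalRing
    IsArtinianTestAlgebra 𝒪 (URing 𝒪 ⧸ J) := by
  haveI := h.isLocalRing
  haveI := h.fin
  refine ⟨⟨fun c hc => ?_⟩, ?_, inferInstance⟩
  · by_contra hcu
    have h1 : algebraMap 𝒪 (URing 𝒪) c ∈ m0 F := by
      rw [mem_m0, aug_algebraMap, residue_eq_zero_iff]
      exact hcu
    exact ((h.mk_mem_maximalIdeal _).mpr h1) hc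
  · intro x
    obtain ⟨y, rfl⟩ := residue_surjective x
    obtain ⟨u, rfl⟩ := Ideal.Quotient.mk_surjective y
    obtain ⟨c, hc⟩ := residue_surjective (aug F u)
    refine ⟨c, ?_⟩
    show residue _ (Ideal.Quotient.mk J (algebraMap 𝒪 (URing 𝒪) c)) = _
    rw [← sub_eq_zero, ← map_sub, ← map_sub, residue_eq_zero_iff, h.mk_mem_maximalIdeal, mem_m0,
      map_sub, aug_algebraMap, hc, sub_self]

/-- The matrix representation over the quotient. -/
def Pre.rep {J : Ideal (URing 𝒪)} (h : Pre F J) :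
    GQ →* Matrix (Fin 2) (Fin 2) (URing 𝒪 ⧸ J) where
  toFun g := (univMat 𝒪 g).map (Ideal.Quotient.mk J)
  map_one' := by
    have h1 : (1 : Matrix (Fin 2) (Fin 2) (URing 𝒪 ⧸ J)) =
      (1 : Matrix (Fin 2) (Fin 2) (URing 𝒪)).map (Ideal.Quotient.mk J) := by
      rw [Matrix.map_one _ (map_zero _) (map_one _)]
    rw [h1]
    ext i j
    rw [Matrix.map_apply, Matrix.map_apply, ← sub_eq_zero, ← map_sub,
      Ideal.Quotient.eq_zero_iff_mem]
    exact h.rel_one i j
  map_mul' a b := by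
    rw [← Matrix.map_mul]
    ext i j
    rw [Matrix.map_apply, Matrix.map_apply, ← sub_eq_zero, ← map_sub,
      Ideal.Quotient.eq_zero_iff_mem]
    exact h.rel_mul a b i j

theorem Pre.rep_apply {J : Ideal (URing 𝒪)} (h : Pre F J) (g : GQ) (i j : Fin 2) :
    h.rep g i j = Ideal.Quotient.mk J (MvPolynomial.X (g, i, j)) := rfl

theorem Pre.isNorm {J : Ideal (URing 𝒪)} (h : Pre F J) :
    haveI := h.isLocalRing
    IsNorm F h.rep := by
  haveI := h.isLocalRing
  have hc : ∀ (c : GQ →₀ 𝒪) (i j : Fin 2), comb c h.rep i j =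
      Ideal.Quotient.mk J (comb c (univMat 𝒪) i j) := fun c i j =>
    comb_univMat_map (Ideal.Quotient.mkₐ 𝒪 J) c _ (fun g i j => rfl) i j
  refine ⟨?_, ?_, ?_, ?_, ?_⟩
  · intro n
    obtain ⟨L, hL, h1⟩ := h.rel_cont
    refine ⟨L, hL, fun σ hσ i j => ?_⟩
    have h2 : (h.rep σ - 1) i j = Ideal.Quotient.mk J ((univMat 𝒪 σ - 1) i j) := by
      rw [Matrix.sub_apply, Matrix.sub_apply, map_sub, h.rep_apply, Matrix.one_apply,
        Matrix.one_apply, univMat_apply]
      split_ifs <;> simp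
    rw [h2, Ideal.Quotient.eq_zero_iff_mem.mpr (h1 σ hσ i j)]
    exact Ideal.zero_mem _
  · intro g i j
    have h1 : h.rep g i j - algebraMap 𝒪 (URing 𝒪 ⧸ J) (F.lift g i j) =
      Ideal.Quotient.mk J (MvPolynomial.X (g, i, j) - algebraMap 𝒪 (URing 𝒪) (F.lift g i j)) := by
      rw [map_sub]; rfl
    rw [h1, h.mk_mem_maximalIdeal, mem_m0, map_sub, aug_X, aug_algebraMap, sub_self]
  · rw [hc, Ideal.Quotient.eq_zero_iff_mem]; exact h.n1
  · rw [hc, Ideal.Quotient.eq_zero_iff_mem]; exact h.n2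
  · rw [hc, ← sub_eq_zero, ← map_one (Ideal.Quotient.mk J), ← map_sub,
      Ideal.Quotient.eq_zero_iff_mem]
    exact h.n3

variable (F) in
/-- Admissible ideals. -/
def Adm (𝒟 : ∀ ⦃A : Type⦄ [CommRing A] [IsLocalRing A] [Algebra 𝒪 A], GaloisRepAdic A → Prop)
    (J : Ideal (URing 𝒪)) : Prop :=
  ∃ h : Pre F J, haveI := h.isLocalRing
    𝒟 (ofMat h.rep h.isNorm.cont)

end Fermat.Agent.UnivDef
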