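import Mathlib
import Fermat.Prelude.Def_GaloisRep_Adic
import Fermat.Prelude.Def_GaloisRep_DeformationCondition
import Fermat.Agent.UnivDef.AdmBasic

/-!
# Stability properties of admissible ideals
-/

set_option autoImplicit false
set_option linter.style.haveILetI false
set_option linter.unusedSectionVars false

noncomputable section

open scoped TensorProduct
open IsLocalRing GaloisRep

namespace Fermat.Agent.UnivDef

local notation "GQ" => (AlgebraicClosure ℚ ≃ₐ[ℚ] AlgebraicClosure ℚ)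

variable {𝒪 : Type} [CommRing 𝒪] [IsLocalRing 𝒪]
variable {ρbar : ResidualGaloisRep (ResidueField 𝒪)} {F : FrameData 𝒪 ρbar}
variable {𝒟 : ∀ ⦃A : Type⦄ [CommRing A] [IsLocalRing A] [Algebra 𝒪 A], GaloisRepAdic A → Prop}

theorem finite_of_test [Finite (ResidueField 𝒪)] {A : Type} [CommRing A] [IsLocalRing A]
    [Algebra 𝒪 A] (hA : IsArtinianTestAlgebra 𝒪 A) : Finite A := by
  haveI := hA.isLocalHom
  haveI := hA.isArtinian
  haveI : Finite (A ⧸ maximalIdeal A) := by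
    have h1 : Finite (ResidueField A) := by
      refine Finite.of_surjective (ResidueField.map (algebraMap 𝒪 A)) fun x => ?_
      obtain ⟨c, hc⟩ := hA.residue_surjective x
      exact ⟨residue 𝒪 c, by rw [ResidueField.map_residue]; exact hc⟩
    exact h1
  have hnil : IsNilpotent (maximalIdeal A) := by
    have := IsArtinianRing.isNilpotent_jacobson_bot (R := A)
    rwa [IsLocalRing.jacobson_eq_maximalIdeal ⊥ bot_ne_top] at this
  obtain ⟨n, hn⟩ := hnil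
  haveI := Ideal.finite_quotient_pow (I := maximalIdeal A)
    (IsNoetherian.noetherian (maximalIdeal A)) n
  rw [hn] at this
  exact Finite.of_equiv _ (RingEquiv.quotientBot A).toEquiv

theorem exists_pow_eq_bot {A : Type} [CommRing A] [IsLocalRing A] [IsArtinianRing A] :
    ∃ n, maximalIdeal A ^ n = ⊥ := by
  have := IsArtinianRing.isNilpotent_jacobson_bot (R := A)
  rwa [IsLocalRing.jacobson_eq_maximalIdeal ⊥ bot_ne_top] at this

/-- The kernel of evaluation at a normalised representation over a test algebra. -/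
theorem pre_ker [Finite (ResidueField 𝒪)] {A : Type} [CommRing A] [IsLocalRing A] [Algebra 𝒪 A]
    (hA : IsArtinianTestAlgebra 𝒪 A) {r : GQ →* Matrix (Fin 2) (Fin 2) A} (hr : IsNorm F r) :
    Pre F (RingHom.ker (ev r : URing 𝒪 →ₐ[𝒪] A)) := by
  haveI := hA.isLocalHom
  haveI := hA.isArtinian
  haveI := finite_of_test hA
  have hc : ∀ (c : GQ →₀ 𝒪) (i j : Fin 2), comb c r i j =
      ev r (comb c (univMat 𝒪) i j) := fun c i j =>
    comb_univMat_map (ev r) c _ (fun g i j => (ev_X r g i j).symm) i j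
  obtain ⟨N, hN⟩ := exists_pow_eq_bot (A := A)
  refine ⟨?_, ⟨N, ?_⟩, ?_, ?_, ?_, ?_, ?_, ?_, ?_⟩
  · intro u hu
    rw [← ev_mem_maximalIdeal_iff F hr.res, RingHom.mem_ker.mp hu]
    exact Ideal.zero_mem _
  · intro u hu
    rw [RingHom.mem_ker, ← Ideal.mem_bot, ← hN]
    have h1 : (m0 F).map (ev r : URing 𝒪 →ₐ[𝒪] A) ≤ maximalIdeal A := by
      rw [Ideal.map_le_iff_le_comap]
      intro v hv
      exact (ev_mem_maximalIdeal_iff F hr.res v).mpr hv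
    refine Ideal.pow_right_mono h1 N ?_
    rw [← Ideal.map_pow]
    exact Ideal.mem_map_of_mem _ hu
  · exact Finite.of_injective _ (Ideal.kerLiftAlg_injective (ev r : URing 𝒪 →ₐ[𝒪] A))
  · intro g h i j
    rw [RingHom.mem_ker, Matrix.sub_apply, map_sub, univMat_apply, ev_X, map_mul, sub_eq_zero,
      Matrix.mul_apply, Matrix.mul_apply, map_sum]
    refine Finset.sum_congr rfl fun l _ => ?_
    rw [map_mul, univMat_apply, univMat_apply, ev_X, ev_X]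
  · intro i j
    rw [RingHom.mem_ker, Matrix.sub_apply, map_sub, univMat_apply, ev_X, map_one, sub_eq_zero,
      Matrix.one_apply, Matrix.one_apply]
    split_ifs <;> simp
  · obtain ⟨L, hL, h1⟩ := hr.cont N
    refine ⟨L, hL, fun σ hσ i j => ?_⟩
    have h2 := h1 σ hσ i j
    rw [hN, Ideal.mem_bot] at h2
    rw [RingHom.mem_ker, ← h2, Matrix.sub_apply, Matrix.sub_apply, map_sub, univMat_apply, ev_X,
      Matrix.one_apply, Matrix.one_apply]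
    split_ifs <;> simp
  · rw [RingHom.mem_ker, ← hc]; exact hr.n1
  · rw [RingHom.mem_ker, ← hc]; exact hr.n2
  · rw [RingHom.mem_ker, map_sub, ← hc, map_one, sub_eq_zero]; exact hr.n3

theorem adm_ker [Finite (ResidueField 𝒪)] (h𝒟 : IsDeformationCondition 𝒪 𝒟) {A : Type}
    [CommRing A] [IsLocalRing A] [Algebra 𝒪 A]
    (hA : IsArtinianTestAlgebra 𝒪 A) {r : GQ →* Matrix (Fin 2) (Fin 2) A} (hr : IsNorm F r)
    (hD : 𝒟 (ofMat r hr.cont)) : Adm F 𝒟 (RingHom.ker (ev r : URing 𝒪 →ₐ[𝒪] A)) := by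
  have hp := pre_ker hA hr
  refine ⟨hp, ?_⟩
  haveI := hA.isLocalHom
  haveI := hp.isLocalRing
  let ι : (URing 𝒪 ⧸ RingHom.ker (ev r : URing 𝒪 →ₐ[𝒪] A)) →ₐ[𝒪] A :=
    Ideal.kerLiftAlg (ev r : URing 𝒪 →ₐ[𝒪] A)
  have hι : IsLocalHom (ι : (URing 𝒪 ⧸ RingHom.ker (ev r : URing 𝒪 →ₐ[𝒪] A)) →+* A) :=
    isLocalHom_of_algHom ι hA.isLocalHom hA.residue_surjective
  refine h𝒟.of_baseChangeAlong_injective hp.test hA ι hι (Ideal.kerLiftAlg_injective _) ?_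
  have h1 : mapMat (ι : (URing 𝒪 ⧸ RingHom.ker (ev r : URing 𝒪 →ₐ[𝒪] A)) →+* A) hp.rep = r := by
    refine MonoidHom.ext fun g => ?_
    ext i j
    rw [mapMat_apply, hp.rep_apply]
    exact ev_X r g i j
  have h2 := ofMat_baseChangeAlong _ hι hp.isNorm.cont (isContMat_mapMat _ hι hp.isNorm.cont)
  simp only [h1] at h2
  obtain ⟨e⟩ := h2
  exact h𝒟.of_isEquiv hA ⟨e.symm⟩ hD

theorem Pre.mono {J J' : Ideal (URing 𝒪)} (h : Pre F J) (hJ : J ≤ J') (hJ' : J' ≤ m0 F) :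
    Pre F J' := by
  refine ⟨hJ', ?_, ?_, fun g h' i j => hJ (h.rel_mul g h' i j), fun i j => hJ (h.rel_one i j),
    ?_, hJ h.n1, hJ h.n2, hJ h.n3⟩
  · obtain ⟨n, hn⟩ := h.nil
    exact ⟨n, hn.trans hJ⟩
  · haveI := h.fin
    exact Finite.of_surjective _ (Ideal.Quotient.factor_surjective hJ)
  · obtain ⟨L, hL, h1⟩ := h.rel_cont
    exact ⟨L, hL, fun σ hσ i j => hJ (h1 σ hσ i j)⟩

theorem Adm.mono (h𝒟 : IsDeformationCondition 𝒪 𝒟) {J J' : Ideal (URing 𝒪)} (h : Adm F 𝒟 J)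
    (hJ : J ≤ J') (hJ' : J' ≤ m0 F) : Adm F 𝒟 J' := by
  obtain ⟨hp, hD⟩ := h
  have hp' := hp.mono hJ hJ'
  refine ⟨hp', ?_⟩
  haveI := hp.isLocalRing
  haveI := hp'.isLocalRing
  let φ : (URing 𝒪 ⧸ J) →ₐ[𝒪] (URing 𝒪 ⧸ J') := Ideal.Quotient.factorₐ 𝒪 hJ
  have hφ : IsLocalHom (φ : (URing 𝒪 ⧸ J) →+* (URing 𝒪 ⧸ J')) :=
    isLocalHom_of_algHom φ hp'.test.isLocalHom hp'.test.residue_surjective
  have h1 : mapMat (φ : (URing 𝒪 ⧸ J) →+* (URing 𝒪 ⧸ J')) hp.rep = hp'.rep := by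
    refine MonoidHom.ext fun g => ?_
    ext i j
    rfl
  have h2 := ofMat_baseChangeAlong _ hφ hp.isNorm.cont (isContMat_mapMat _ hφ hp.isNorm.cont)
  simp only [h1] at h2
  exact h𝒟.of_isEquiv hp'.test h2 (h𝒟.baseChangeAlong hp.test hp'.test φ hφ hD)

theorem Pre.inf {J₁ J₂ : Ideal (URing 𝒪)} (h₁ : Pre F J₁) (h₂ : Pre F J₂) :
    Pre F (J₁ ⊓ J₂) := by
  refine ⟨inf_le_left.trans h₁.le, ?_, ?_, fun g h i j => ⟨h₁.rel_mul g h i j, h₂.rel_mul g h i j⟩,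
    fun i j => ⟨h₁.rel_one i j, h₂.rel_one i j⟩, ?_, ⟨h₁.n1, h₂.n1⟩, ⟨h₁.n2, h₂.n2⟩,
    ⟨h₁.n3, h₂.n3⟩⟩
  · obtain ⟨n₁, hn₁⟩ := h₁.nil
    obtain ⟨n₂, hn₂⟩ := h₂.nil
    exact ⟨max n₁ n₂, le_inf ((Ideal.pow_le_pow_right (le_max_left _ _)).trans hn₁)
      ((Ideal.pow_le_pow_right (le_max_right _ _)).trans hn₂)⟩
  · haveI := h₁.fin
    haveI := h₂.fin
    let f : (URing 𝒪 ⧸ (J₁ ⊓ J₂)) → (URing 𝒪 ⧸ J₁) × (URing 𝒪 ⧸ J₂) := fun x =>
      (Ideal.Quotient.factor inf_le_left x, Ideal.Quotient.factor inf_le_right x)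
    refine Finite.of_injective f ?_
    intro x y hxy
    obtain ⟨u, rfl⟩ := Ideal.Quotient.mk_surjective x
    obtain ⟨v, rfl⟩ := Ideal.Quotient.mk_surjective y
    have h3 := congrArg Prod.fst hxy
    have h4 := congrArg Prod.snd hxy
    simp only [f, Ideal.Quotient.factor_mk] at h3 h4
    rw [Ideal.Quotient.eq] at h3 h4 ⊢
    exact ⟨h3, h4⟩
  · obtain ⟨L₁, hL₁, h3⟩ := h₁.rel_cont
    obtain ⟨L₂, hL₂, h4⟩ := h₂.rel_cont
    haveI := hL₁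
    haveI := hL₂
    refine ⟨L₁ ⊔ L₂, IntermediateField.finiteDimensional_sup L₁ L₂, fun σ hσ i j => ⟨?_, ?_⟩⟩
    · exact h3 σ (fun x hx => hσ x ((le_sup_left : L₁ ≤ L₁ ⊔ L₂) hx)) i j
    · exact h4 σ (fun x hx => hσ x ((le_sup_right : L₂ ≤ L₁ ⊔ L₂) hx)) i j

theorem Adm.inf (h𝒟 : IsDeformationCondition 𝒪 𝒟) {J₁ J₂ : Ideal (URing 𝒪)}
    (h₁ : Adm F 𝒟 J₁) (h₂ : Adm F 𝒟 J₂) : Adm F 𝒟 (J₁ ⊓ J₂) := by
  obtain ⟨hp₁, hD₁⟩ := h₁
  obtain ⟨hp₂, hD₂⟩ := h₂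
  have hp := hp₁.inf hp₂
  have hs : Pre F (J₁ ⊔ J₂) := hp₁.mono le_sup_left (sup_le hp₁.le hp₂.le)
  refine ⟨hp, ?_⟩
  haveI := hp₁.isLocalRing
  haveI := hp₂.isLocalRing
  haveI := hp.isLocalRing
  haveI := hs.isLocalRing
  let f : (URing 𝒪 ⧸ J₁) →ₐ[𝒪] (URing 𝒪 ⧸ (J₁ ⊔ J₂)) := Ideal.Quotient.factorₐ 𝒪 le_sup_left
  let g : (URing 𝒪 ⧸ J₂) →ₐ[𝒪] (URing 𝒪 ⧸ (J₁ ⊔ J₂)) := Ideal.Quotient.factorₐ 𝒪 le_sup_right
  let pA : (URing 𝒪 ⧸ (J₁ ⊓ J₂)) →ₐ[𝒪] (URing 𝒪 ⧸ J₁) := Ideal.Quotient.factorₐ 𝒪 inf_le_left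
  let pB : (URing 𝒪 ⧸ (J₁ ⊓ J₂)) →ₐ[𝒪] (URing 𝒪 ⧸ J₂) := Ideal.Quotient.factorₐ 𝒪 inf_le_right
  have hpA : IsLocalHom (pA : (URing 𝒪 ⧸ (J₁ ⊓ J₂)) →+* (URing 𝒪 ⧸ J₁)) :=
    isLocalHom_of_algHom pA hp₁.test.isLocalHom hp₁.test.residue_surjective
  have hpB : IsLocalHom (pB : (URing 𝒪 ⧸ (J₁ ⊓ J₂)) →+* (URing 𝒪 ⧸ J₂)) :=
    isLocalHom_of_algHom pB hp₂.test.isLocalHom hp₂.test.residue_surjective
  refine h𝒟.of_fibreProduct hp₁.test hp₂.test hs.test hp.test f g pA pB hpA hpB ?_ ?_ ?_ ?_ ?_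
  · refine AlgHom.ext fun x => ?_
    obtain ⟨u, rfl⟩ := Ideal.Quotient.mk_surjective x
    rfl
  · intro x y hxy
    obtain ⟨u, rfl⟩ := Ideal.Quotient.mk_surjective x
    obtain ⟨v, rfl⟩ := Ideal.Quotient.mk_surjective y
    have h3 : (Ideal.Quotient.mk J₁ u) = Ideal.Quotient.mk J₁ v := congrArg Prod.fst hxy
    have h4 : (Ideal.Quotient.mk J₂ u) = Ideal.Quotient.mk J₂ v := congrArg Prod.snd hxy
    rw [Ideal.Quotient.eq] at h3 h4 ⊢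
    exact ⟨h3, h4⟩
  · intro a b hab
    obtain ⟨u, rfl⟩ := Ideal.Quotient.mk_surjective a
    obtain ⟨v, rfl⟩ := Ideal.Quotient.mk_surjective b
    have h3 : (Ideal.Quotient.mk (J₁ ⊔ J₂) u) = Ideal.Quotient.mk (J₁ ⊔ J₂) v := hab
    rw [Ideal.Quotient.eq] at h3
    obtain ⟨j₁, hj₁, j₂, hj₂, h4⟩ := Submodule.mem_sup.mp h3
    refine ⟨Ideal.Quotient.mk _ (u - j₁), ?_, ?_⟩
    · show Ideal.Quotient.mk J₁ (u - j₁) = Ideal.Quotient.mk J₁ u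
      rw [Ideal.Quotient.eq]
      simpa using hj₁
    · show Ideal.Quotient.mk J₂ (u - j₁) = Ideal.Quotient.mk J₂ v
      rw [Ideal.Quotient.eq]
      have h5 : u - j₁ - v = j₂ := by linear_combination -h4
      rw [h5]; exact hj₂
  · have h1 : mapMat (pA : (URing 𝒪 ⧸ (J₁ ⊓ J₂)) →+* (URing 𝒪 ⧸ J₁)) hp.rep = hp₁.rep := by
      refine MonoidHom.ext fun g => ?_
      ext i j
      rfl
    have h2 := ofMat_baseChangeAlong _ hpA hp.isNorm.cont (isContMat_mapMat _ hpA hp.isNorm.cont)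
    simp only [h1] at h2
    obtain ⟨e⟩ := h2
    exact h𝒟.of_isEquiv hp₁.test ⟨e.symm⟩ hD₁
  · have h1 : mapMat (pB : (URing 𝒪 ⧸ (J₁ ⊓ J₂)) →+* (URing 𝒪 ⧸ J₂)) hp.rep = hp₂.rep := by
      refine MonoidHom.ext fun g => ?_
      ext i j
      rfl
    have h2 := ofMat_baseChangeAlong _ hpB hp.isNorm.cont (isContMat_mapMat _ hpB hp.isNorm.cont)
    simp only [h1] at h2
    obtain ⟨e⟩ := h2
    exact h𝒟.of_isEquiv hp₂.test ⟨e.symm⟩ hD₂

end Fermat.Agent.UnivDef
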