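import Mathlib
import Fermat.Prelude.Def_GaloisRep_Adic
import Fermat.Prelude.Def_GaloisRep_DeformationCondition
import Fermat.Agent.UnivDef.AdmLemmas

/-!
# The tangent space argument
-/

set_option autoImplicit false
set_option linter.style.haveILetI false
set_option linter.unusedSectionVars false

noncomputable section

open scoped TensorProduct
open IsLocalRing GaloisRep

namespace Fermat.Agent.UnivDef

local notation "GQ" => (AlgebraicClosure ℚ ≃ₐ[ℚ] AlgebraicClosure ℚ)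

variable {𝒪 : Type} [CommRing 𝒪] [IsLocalRing 𝒪]
variable {ρbar : ResidualGaloisRep (ResidueField 𝒪)} {F : FrameData 𝒪 ρbar}
variable {𝒟 : ∀ ⦃A : Type⦄ [CommRing A] [IsLocalRing A] [Algebra 𝒪 A], GaloisRepAdic A → Prop}

theorem maximalIdeal_field_eq_bot (k : Type) [Field k] : maximalIdeal k = ⊥ :=
  (Ideal.eq_bot_or_top _).resolve_right (Ideal.IsMaximal.ne_top inferInstance)

theorem test_residueField : IsArtinianTestAlgebra 𝒪 (ResidueField 𝒪) := by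
  refine ⟨?_, ?_, inferInstance⟩
  · have : algebraMap 𝒪 (ResidueField 𝒪) = residue 𝒪 := rfl
    rw [this]
    infer_instance
  · intro x
    obtain ⟨y, rfl⟩ := residue_surjective x
    obtain ⟨c, rfl⟩ := residue_surjective y
    exact ⟨c, rfl⟩

/-- The residual matrix representation. -/
def resMat (F : FrameData 𝒪 ρbar) : GQ →* Matrix (Fin 2) (Fin 2) (ResidueField 𝒪) :=
  matOf (GaloisRepAdic.ofResidualGaloisRep ρbar) F.b

theorem resMat_apply (F : FrameData 𝒪 ρbar) (g : GQ) (i j : Fin 2) :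
    resMat F g i j = residue 𝒪 (F.lift g i j) := by
  rw [F.lift_spec]
  rfl

theorem comb_resMat (F : FrameData 𝒪 ρbar) (c : GQ →₀ 𝒪) (i j : Fin 2) :
    comb c (resMat F) i j = residue 𝒪 (c.sum fun g x => x * F.lift g i j) := by
  rw [comb_apply, Finsupp.sum, Finsupp.sum, map_sum]
  refine Finset.sum_congr rfl fun g _ => ?_
  rw [map_mul, resMat_apply]
  rfl

theorem isNorm_resMat (F : FrameData 𝒪 ρbar) : IsNorm F (resMat F) := by
  refine ⟨isContMat_matOf _ _, ?_, ?_, ?_, ?_⟩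
  · intro g i j
    rw [resMat_apply]
    have : algebraMap 𝒪 (ResidueField 𝒪) = residue 𝒪 := rfl
    rw [this, sub_self]
    exact Ideal.zero_mem _
  · rw [comb_resMat, F.α_spec]; simp
  · rw [comb_resMat, F.β_spec]; simp
  · rw [comb_resMat, F.β_spec]; simp

theorem adm_m0 [Finite (ResidueField 𝒪)] (h𝒟 : IsDeformationCondition 𝒪 𝒟)
    (hbar : 𝒟 (GaloisRepAdic.ofResidualGaloisRep ρbar)) : Adm F 𝒟 (m0 F) := by
  have h1 : 𝒟 (ofMat (resMat F) (isNorm_resMat F).cont) :=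
    h𝒟.of_isEquiv test_residueField
      (isEquiv_ofMat_matOf (GaloisRepAdic.ofResidualGaloisRep ρbar) F.b) hbar
  have h2 := adm_ker h𝒟 test_residueField (isNorm_resMat F) h1
  have h3 : (ev (resMat F) : URing 𝒪 →ₐ[𝒪] ResidueField 𝒪) = aug F := by
    refine algHom_ext_X fun g i j => ?_
    rw [ev_X, aug_X, resMat_apply]
  rw [h3] at h2
  exact h2

/-! ### Dual numbers -/

variable (𝒪) in
/-- The dual numbers over the residue field. -/
abbrev Dual : Type := DualNumber (ResidueField 𝒪)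

variable (𝒪) in
/-- The `𝒪`-algebra structure used in `TangentFinite`. -/
@[reducible] def dualAlg : Algebra 𝒪 (Dual 𝒪) :=
  ((algebraMap (ResidueField 𝒪) (DualNumber (ResidueField 𝒪))).comp
    (algebraMap 𝒪 (ResidueField 𝒪))).toAlgebra

attribute [local instance 10000] dualAlg

theorem dual_algebraMap (c : 𝒪) : algebraMap 𝒪 (Dual 𝒪) c = TrivSqZeroExt.inl (residue 𝒪 c) := rfl

instance finite_dual [Finite (ResidueField 𝒪)] : Finite (Dual 𝒪) :=
  inferInstanceAs (Finite (ResidueField 𝒪 × ResidueField 𝒪))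

theorem isUnit_dual_iff (x : Dual 𝒪) : IsUnit x ↔ x.fst ≠ 0 := by
  rw [TrivSqZeroExt.isUnit_iff_isUnit_fst, isUnit_iff_ne_zero]

theorem test_dual [Finite (ResidueField 𝒪)] : IsArtinianTestAlgebra 𝒪 (Dual 𝒪) := by
  refine ⟨⟨fun c hc => ?_⟩, ?_, inferInstance⟩
  · rw [isUnit_dual_iff, dual_algebraMap, TrivSqZeroExt.fst_inl] at hc
    by_contra h
    exact hc ((residue_eq_zero_iff c).mpr h)
  · intro x
    obtain ⟨y, rfl⟩ := residue_surjective x
    obtain ⟨c, hc⟩ := residue_surjective y.fst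
    refine ⟨c, ?_⟩
    show residue _ (algebraMap 𝒪 (Dual 𝒪) c) = _
    rw [← sub_eq_zero, ← map_sub, residue_eq_zero_iff, mem_maximalIdeal, mem_nonunits_iff,
      isUnit_dual_iff, dual_algebraMap, TrivSqZeroExt.fst_sub, TrivSqZeroExt.fst_inl, hc]
    simp

/-- Every map to the dual numbers killing an admissible ideal gives a deformation. -/
theorem exists_rep_dual [Finite (ResidueField 𝒪)] (h𝒟 : IsDeformationCondition 𝒪 𝒟)
    {J : Ideal (URing 𝒪)} (hJ : Adm F 𝒟 J) (ψ : URing 𝒪 →ₐ[𝒪] Dual 𝒪)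
    (hψ : J ≤ RingHom.ker ψ) :
    ∃ (r : GQ →* Matrix (Fin 2) (Fin 2) (Dual 𝒪)) (hr : IsNorm F r),
      (∀ g i j, r g i j = ψ (MvPolynomial.X (g, i, j))) ∧ 𝒟 (ofMat r hr.cont) := by
  obtain ⟨hp, hD⟩ := hJ
  haveI := hp.isLocalRing
  let φ : (URing 𝒪 ⧸ J) →ₐ[𝒪] Dual 𝒪 := Ideal.Quotient.liftₐ J ψ fun a ha => hψ ha
  have hφ : IsLocalHom (φ : (URing 𝒪 ⧸ J) →+* Dual 𝒪) :=
    isLocalHom_of_algHom φ test_dual.isLocalHom test_dual.residue_surjective
  have hn : IsNorm F (mapMat (φ : (URing 𝒪 ⧸ J) →+* Dual 𝒪) hp.rep) := hp.isNorm.map F φ hφ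
  refine ⟨_, hn, fun g i j => rfl, ?_⟩
  exact h𝒟.of_isEquiv test_dual (ofMat_baseChangeAlong _ hφ hp.isNorm.cont hn.cont)
    (h𝒟.baseChangeAlong hp.test test_dual φ hφ hD)

/-- The set of tangent vectors is finite. -/
theorem finite_tangent [Finite (ResidueField 𝒪)] (h𝒟 : IsDeformationCondition 𝒪 𝒟)
    (hfin : TangentFinite 𝒪 ρbar 𝒟) :
    Finite {ψ : URing 𝒪 →ₐ[𝒪] Dual 𝒪 // ∃ J, Adm F 𝒟 J ∧ J ≤ RingHom.ker ψ} := by
  letI alg2 : Algebra (ResidueField 𝒪) (ResidueField (Dual 𝒪)) :=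
    ((IsLocalRing.residue (DualNumber (ResidueField 𝒪))).comp
      (algebraMap (ResidueField 𝒪) (DualNumber (ResidueField 𝒪)))).toAlgebra
  haveI hloc : IsLocalHom (algebraMap 𝒪 (Dual 𝒪)) := test_dual.isLocalHom
  have hex : ∀ ψ : {ψ : URing 𝒪 →ₐ[𝒪] Dual 𝒪 // ∃ J, Adm F 𝒟 J ∧ J ≤ RingHom.ker ψ},
      ∃ (r : GQ →* Matrix (Fin 2) (Fin 2) (Dual 𝒪)) (hr : IsNorm F r),
      (∀ g i j, r g i j = ψ.1 (MvPolynomial.X (g, i, j))) ∧ 𝒟 (ofMat r hr.cont) := by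
    rintro ⟨ψ, J, hJ, hψ⟩
    exact exists_rep_dual h𝒟 hJ ψ hψ
  choose r hr hrX hrD using hex
  have hmap : ResidueField.map (algebraMap 𝒪 (Dual 𝒪)) =
      (IsLocalRing.residue (DualNumber (ResidueField 𝒪))).comp
      (algebraMap (ResidueField 𝒪) (DualNumber (ResidueField 𝒪))) := by
    refine RingHom.ext fun x => ?_
    obtain ⟨c, rfl⟩ := residue_surjective x
    rw [ResidueField.map_residue]
    rfl
  have hres : ∀ ψ, (ofMat (r ψ) (hr ψ).cont).residual.IsEquiv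
      (ρbar.baseChange (ResidueField (DualNumber (ResidueField 𝒪)))) := by
    intro ψ
    have h1 := residual_isEquiv_of_isLiftMat F (hr ψ).cont (hr ψ).res
    rw [hmap] at h1
    exact h1
  unfold TangentFinite at hfin
  refine @Finite.of_injective _ _ hfin (fun ψ => Quotient.mk _ ⟨ofMat (r ψ) (hr ψ).cont,
    hrD ψ, hres ψ⟩) ?_
  intro ψ ψ' h
  have h1 : (ofMat (r ψ) (hr ψ).cont).IsEquiv (ofMat (r ψ') (hr ψ').cont) := Quotient.exact h
  have h2 := (hr ψ).eq_of_isEquiv F (hr ψ') h1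
  refine Subtype.ext (algHom_ext_X fun g i j => ?_)
  rw [← hrX, ← hrX, h2]

theorem adm_finset_inf [Finite (ResidueField 𝒪)] (h𝒟 : IsDeformationCondition 𝒪 𝒟)
    (hbar : 𝒟 (GaloisRepAdic.ofResidualGaloisRep ρbar)) {ι : Type*} (s : Finset ι)
    (J : ι → Ideal (URing 𝒪)) (hJ : ∀ i, Adm F 𝒟 (J i)) : Adm F 𝒟 (m0 F ⊓ s.inf J) := by
  classical
  induction s using Finset.induction_on with
  | empty => simpa using adm_m0 h𝒟 hbar
  | insert a s ha ih =>
    rw [Finset.inf_insert]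
    have h1 : m0 F ⊓ (J a ⊓ s.inf J) = J a ⊓ (m0 F ⊓ s.inf J) := by
      rw [← inf_assoc, ← inf_assoc, inf_comm (m0 F) (J a)]
    rw [h1]
    exact (hJ a).inf h𝒟 ih

variable (𝒪) in
/-- The ideal generated by the maximal ideal of `𝒪`. -/
def pU : Ideal (URing 𝒪) := (maximalIdeal 𝒪).map (algebraMap 𝒪 (URing 𝒪))

theorem pU_le_m0 : pU 𝒪 ≤ m0 F := by
  rw [pU, Ideal.map_le_iff_le_comap]
  intro c hc
  rw [Ideal.mem_comap, mem_m0, aug_algebraMap, residue_eq_zero_iff]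
  exact hc

/-- Separating elements outside `m0 ^ 2 ⊔ pU ⊔ J` by maps to the dual numbers. -/
theorem exists_dual_map {J : Ideal (URing 𝒪)} (hJ : J ≤ m0 F) {u : URing 𝒪}
    (hu : u ∈ m0 F) (hu' : u ∉ m0 F ^ 2 ⊔ pU 𝒪 ⊔ J) :
    ∃ ψ : URing 𝒪 →ₐ[𝒪] Dual 𝒪, J ≤ RingHom.ker ψ ∧ ψ u ≠ 0 := by
  set I := m0 F ^ 2 ⊔ pU 𝒪 ⊔ J with hI
  have hIm : I ≤ m0 F := sup_le (sup_le (Ideal.pow_le_self two_ne_zero) pU_le_m0) hJ
  -- the `k`-algebra structure on the quotient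
  have hk : ∀ c ∈ maximalIdeal 𝒪, algebraMap 𝒪 (URing 𝒪 ⧸ I) c = 0 := by
    intro c hc
    have h1 : algebraMap 𝒪 (URing 𝒪) c ∈ I :=
      (le_sup_of_le_left le_sup_right : pU 𝒪 ≤ I) (Ideal.mem_map_of_mem _ hc)
    exact Ideal.Quotient.eq_zero_iff_mem.mpr h1
  let κ : ResidueField 𝒪 →+* (URing 𝒪 ⧸ I) :=
    Ideal.Quotient.lift (maximalIdeal 𝒪) (algebraMap 𝒪 (URing 𝒪 ⧸ I)) hk
  letI : Algebra (ResidueField 𝒪) (URing 𝒪 ⧸ I) := κ.toAlgebra
  have hκ : ∀ (c : 𝒪) (b : URing 𝒪 ⧸ I),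
      (residue 𝒪 c) • b = Ideal.Quotient.mk I (algebraMap 𝒪 (URing 𝒪) c) * b := fun c b => rfl
  have hmem : Ideal.Quotient.mk I u ∉ Submodule.span (ResidueField 𝒪)
      {(1 : URing 𝒪 ⧸ I)} := by
    intro h
    obtain ⟨x, hx⟩ := Submodule.mem_span_singleton.mp h
    obtain ⟨c, rfl⟩ := residue_surjective x
    rw [hκ, mul_one, Ideal.Quotient.eq] at hx
    have h1 := hIm hx
    rw [mem_m0, map_sub, aug_algebraMap, (mem_m0 F).mp hu, sub_zero] at h1
    have h2 : Ideal.Quotient.mk I (algebraMap 𝒪 (URing 𝒪) c) = 0 :=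
      hk c ((residue_eq_zero_iff c).mp h1)
    apply hu'
    rw [← Ideal.Quotient.eq_zero_iff_mem]
    rw [← Ideal.Quotient.eq] at hx
    rw [← hx, h2]
  obtain ⟨l, hlu, hl1⟩ := Submodule.exists_le_ker_of_notMem hmem
  have hl1' : l 1 = 0 := hl1 (Submodule.mem_span_singleton_self _)
  have hlc : ∀ c : 𝒪, l (Ideal.Quotient.mk I (algebraMap 𝒪 (URing 𝒪) c)) = 0 := by
    intro c
    have h1 : Ideal.Quotient.mk I (algebraMap 𝒪 (URing 𝒪) c) =
        (residue 𝒪 c) • (1 : URing 𝒪 ⧸ I) := by rw [hκ, mul_one]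
    rw [h1, map_smul, hl1', smul_zero]
  let ψ₀ : URing 𝒪 → Dual 𝒪 := fun v => (aug F v, l (Ideal.Quotient.mk I v))
  have hfst : ∀ v, (ψ₀ v).fst = aug F v := fun v => rfl
  have hsnd : ∀ v, (ψ₀ v).snd = l (Ideal.Quotient.mk I v) := fun v => rfl
  have hdec : ∀ v : URing 𝒪, ∃ (c : 𝒪) (m : URing 𝒪), m ∈ m0 F ∧
      v = algebraMap 𝒪 (URing 𝒪) c + m := by
    intro v
    obtain ⟨c, hc⟩ := residue_surjective (aug F v)
    refine ⟨c, v - algebraMap 𝒪 (URing 𝒪) c, ?_, by ring⟩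
    rw [mem_m0, map_sub, aug_algebraMap, hc, sub_self]
  let ψ : URing 𝒪 →ₐ[𝒪] Dual 𝒪 :=
    { toFun := ψ₀
      map_one' := by
        refine TrivSqZeroExt.ext ?_ ?_
        · rw [hfst, map_one]; rfl
        · rw [hsnd, map_one, hl1']; rfl
      map_zero' := by
        refine TrivSqZeroExt.ext ?_ ?_
        · rw [hfst, map_zero]; rfl
        · rw [hsnd, map_zero, map_zero]; rfl
      map_add' := by
        intro v w
        refine TrivSqZeroExt.ext ?_ ?_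
        · rw [TrivSqZeroExt.fst_add, hfst, hfst, hfst, map_add]
        · rw [TrivSqZeroExt.snd_add, hsnd, hsnd, hsnd, map_add, map_add]
      map_mul' := by
        intro v w
        refine TrivSqZeroExt.ext ?_ ?_
        · rw [TrivSqZeroExt.fst_mul, hfst, hfst, hfst, map_mul]
        · rw [TrivSqZeroExt.snd_mul, hfst, hfst, hsnd, hsnd, hsnd]
          obtain ⟨c, m, hm, rfl⟩ := hdec v
          obtain ⟨d, n, hn, rfl⟩ := hdec w
          have hmn : Ideal.Quotient.mk I (m * n) = 0 := by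
            rw [Ideal.Quotient.eq_zero_iff_mem]
            refine (le_sup_of_le_left le_sup_left : m0 F ^ 2 ≤ I) ?_
            rw [pow_two]
            exact Ideal.mul_mem_mul hm hn
          have e1 : Ideal.Quotient.mk I ((algebraMap 𝒪 (URing 𝒪) c + m) *
              (algebraMap 𝒪 (URing 𝒪) d + n)) =
              Ideal.Quotient.mk I (algebraMap 𝒪 (URing 𝒪) (c * d)) +
                (residue 𝒪 c) • Ideal.Quotient.mk I n + (residue 𝒪 d) • Ideal.Quotient.mk I m := by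
            rw [hκ, hκ, ← map_mul, ← map_mul, ← map_add, ← map_add, ← sub_eq_zero, ← map_sub]
            rw [← hmn]
            congr 1
            rw [map_mul]
            ring
          rw [e1]
          simp only [map_add, map_smul, hlc, zero_add]
          have a1 : aug F (algebraMap 𝒪 (URing 𝒪) c) + aug F m = residue 𝒪 c := by
            rw [aug_algebraMap, (mem_m0 F).mp hm, add_zero]
          have a2 : aug F (algebraMap 𝒪 (URing 𝒪) d) + aug F n = residue 𝒪 d := by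
            rw [aug_algebraMap, (mem_m0 F).mp hn, add_zero]
          rw [a1, a2]
          simp [mul_comm]
      commutes' := by
        intro c
        refine TrivSqZeroExt.ext ?_ ?_
        · rw [hfst, aug_algebraMap, dual_algebraMap, TrivSqZeroExt.fst_inl]
        · rw [hsnd, hlc, dual_algebraMap, TrivSqZeroExt.snd_inl] }
  refine ⟨ψ, ?_, ?_⟩
  · intro v hv
    rw [RingHom.mem_ker]
    refine TrivSqZeroExt.ext ?_ ?_
    · show aug F v = 0
      exact hJ hv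
    · show l (Ideal.Quotient.mk I v) = 0
      rw [Ideal.Quotient.eq_zero_iff_mem.mpr ((le_sup_right : J ≤ I) hv), map_zero]
  · intro h
    exact hlu (congrArg TrivSqZeroExt.snd h)

/-- The key finiteness statement. -/
theorem exists_adm_le [Finite (ResidueField 𝒪)] (h𝒟 : IsDeformationCondition 𝒪 𝒟)
    (hbar : 𝒟 (GaloisRepAdic.ofResidualGaloisRep ρbar)) (hfin : TangentFinite 𝒪 ρbar 𝒟) :
    ∃ J₀ : Ideal (URing 𝒪), Adm F 𝒟 J₀ ∧ ∀ J, Adm F 𝒟 J → J₀ ≤ m0 F ^ 2 ⊔ pU 𝒪 ⊔ J := by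
  haveI := finite_tangent (F := F) h𝒟 hfin
  cases nonempty_fintype {ψ : URing 𝒪 →ₐ[𝒪] Dual 𝒪 // ∃ J, Adm F 𝒟 J ∧ J ≤ RingHom.ker ψ}
  choose J hJ hJψ using fun ψ : {ψ : URing 𝒪 →ₐ[𝒪] Dual 𝒪 //
    ∃ J, Adm F 𝒟 J ∧ J ≤ RingHom.ker ψ} => ψ.2
  refine ⟨m0 F ⊓ Finset.univ.inf J, adm_finset_inf h𝒟 hbar _ J hJ, fun J' hJ' u hu => ?_⟩
  by_contra hcon
  obtain ⟨ψ, hψ, hψu⟩ := exists_dual_map hJ'.1.le hu.1 hcon
  apply hψu
  have h1 : Finset.univ.inf J ≤ J ⟨ψ, J', hJ', hψ⟩ := Finset.inf_le (Finset.mem_univ _)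
  exact hJψ ⟨ψ, J', hJ', hψ⟩ (h1 hu.2)

/-- Finitely many elements generate `m0` modulo `m0 ^ 2 ⊔ pU ⊔ J`, uniformly in `J`. -/
theorem exists_gens [Finite (ResidueField 𝒪)] (h𝒟 : IsDeformationCondition 𝒪 𝒟)
    (hbar : 𝒟 (GaloisRepAdic.ofResidualGaloisRep ρbar)) (hfin : TangentFinite 𝒪 ρbar 𝒟) :
    ∃ (σ : Type) (_ : Fintype σ) (x : σ → URing 𝒪), (∀ i, x i ∈ m0 F) ∧
      ∀ J, Adm F 𝒟 J → m0 F ≤ Ideal.span (Set.range x) ⊔ (m0 F ^ 2 ⊔ pU 𝒪 ⊔ J) := by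
  classical
  obtain ⟨J₀, hJ₀, hle⟩ := exists_adm_le (F := F) h𝒟 hbar hfin
  haveI := hJ₀.1.fin
  cases nonempty_fintype (URing 𝒪 ⧸ J₀)
  let x : (URing 𝒪 ⧸ J₀) → URing 𝒪 := fun y =>
    if h : ∃ v ∈ m0 F, Ideal.Quotient.mk J₀ v = y then h.choose else 0
  have hx1 : ∀ y, x y ∈ m0 F := by
    intro y
    by_cases h : ∃ v ∈ m0 F, Ideal.Quotient.mk J₀ v = y
    · simp only [x, dif_pos h]
      exact h.choose_spec.1
    · simp only [x, dif_neg h]
      exact Ideal.zero_mem _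
  refine ⟨URing 𝒪 ⧸ J₀, inferInstance, x, hx1, fun J hJ v hv => ?_⟩
  have h : ∃ w ∈ m0 F, Ideal.Quotient.mk J₀ w = Ideal.Quotient.mk J₀ v := ⟨v, hv, rfl⟩
  have h1 : Ideal.Quotient.mk J₀ (x (Ideal.Quotient.mk J₀ v)) = Ideal.Quotient.mk J₀ v := by
    simp only [x, dif_pos h]
    exact h.choose_spec.2
  have h2 : v - x (Ideal.Quotient.mk J₀ v) ∈ J₀ := by
    rw [← Ideal.Quotient.eq]; exact h1.symm
  have h3 : v = x (Ideal.Quotient.mk J₀ v) + (v - x (Ideal.Quotient.mk J₀ v)) := by ring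
  rw [h3]
  exact Ideal.add_mem _ ((le_sup_left : Ideal.span (Set.range x) ≤ _)
    (Ideal.subset_span ⟨_, rfl⟩)) ((le_sup_right : _ ≤ Ideal.span (Set.range x) ⊔ _)
      (hle J hJ h2))

end Fermat.Agent.UnivDef
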