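import Mathlib
import Fermat.Prelude.Def_GaloisRep_Adic
import Fermat.Prelude.Def_GaloisRep_DeformationCondition
import Fermat.Agent.UnivDef.Tangent
import Fermat.Agent.UnivDef.PowerSeriesComplete

/-!
# Maps from power series rings to the quotients by admissible ideals
-/

set_option autoImplicit false
set_option linter.style.haveILetI false
set_option linter.unusedSectionVars false

noncomputable section

open scoped TensorProduct
open IsLocalRing GaloisRep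

namespace Fermat.Agent.UnivDef

local notation "GQ" => (AlgebraicClosure ℚ ≃ₐ[ℚ] AlgebraicClosure ℚ)

variable {𝒪 : Type} [CommRing 𝒪] [IsLocalRing 𝒪]
variable {ρbar : ResidualGaloisRep (ResidueField 𝒪)} {F : FrameData 𝒪 ρbar}
variable {𝒟 : ∀ ⦃A : Type⦄ [CommRing A] [IsLocalRing A] [Algebra 𝒪 A], GaloisRepAdic A → Prop}
variable {σ : Type} [Fintype σ]

theorem aeval_mem_m0_pow {x : σ → URing 𝒪} (hx : ∀ i, x i ∈ m0 F) {n : ℕ} {q : MvPolynomial σ 𝒪}
    (hq : q ∈ MvPolynomial.idealOfVars σ 𝒪 ^ n) : MvPolynomial.aeval x q ∈ m0 F ^ n := by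
  have h1 : (MvPolynomial.idealOfVars σ 𝒪).map
      (MvPolynomial.aeval x : MvPolynomial σ 𝒪 →ₐ[𝒪] URing 𝒪) ≤ m0 F := by
    rw [MvPolynomial.idealOfVars, Ideal.map_span, Ideal.span_le]
    rintro _ ⟨_, ⟨i, rfl⟩, rfl⟩
    rw [MvPolynomial.aeval_X]
    exact hx i
  refine Ideal.pow_right_mono h1 n ?_
  rw [← Ideal.map_pow]
  exact Ideal.mem_map_of_mem _ hq

/-- The map from truncated polynomials to the quotient by an ideal containing a power of `m0`. -/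
def thetaPoly {x : σ → URing 𝒪} (hx : ∀ i, x i ∈ m0 F) {J : Ideal (URing 𝒪)} {n : ℕ}
    (hJ : m0 F ^ n ≤ J) : (MvPolynomial σ 𝒪 ⧸ MvPolynomial.idealOfVars σ 𝒪 ^ n) →ₐ[𝒪]
      (URing 𝒪 ⧸ J) :=
  Ideal.Quotient.liftₐ (MvPolynomial.idealOfVars σ 𝒪 ^ n)
    ((Ideal.Quotient.mkₐ 𝒪 J).comp (MvPolynomial.aeval x)) (fun _ hq =>
      Ideal.Quotient.eq_zero_iff_mem.mpr (hJ (aeval_mem_m0_pow hx hq)))

/-- The map from power series to the quotient by an ideal containing a power of `m0`. -/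
def theta {x : σ → URing 𝒪} (hx : ∀ i, x i ∈ m0 F) {J : Ideal (URing 𝒪)} {n : ℕ}
    (hJ : m0 F ^ n ≤ J) : MvPowerSeries σ 𝒪 →ₐ[𝒪] (URing 𝒪 ⧸ J) :=
  (thetaPoly hx hJ).comp ((MvPowerSeries.truncTotalAlgHom σ 𝒪 n).restrictScalars 𝒪)

theorem theta_apply {x : σ → URing 𝒪} (hx : ∀ i, x i ∈ m0 F) {J : Ideal (URing 𝒪)} {n : ℕ}
    (hJ : m0 F ^ n ≤ J) (p : MvPowerSeries σ 𝒪) :
    theta hx hJ p = Ideal.Quotient.mk J (MvPolynomial.aeval x (MvPowerSeries.truncTotal n p)) :=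
  rfl

theorem theta_X {x : σ → URing 𝒪} (hx : ∀ i, x i ∈ m0 F) {J : Ideal (URing 𝒪)} {n : ℕ}
    (hJ : m0 F ^ n ≤ J) (i : σ) :
    theta hx hJ (MvPowerSeries.X i) = Ideal.Quotient.mk J (x i) := by
  have h1 : (MvPowerSeries.truncTotalAlgHom σ 𝒪 n) (MvPowerSeries.X i) =
      Ideal.Quotient.mk _ (MvPolynomial.X i) := by
    have := (MvPowerSeries.truncTotalAlgHom σ 𝒪 n).commutes (MvPolynomial.X i)
    rw [← MvPolynomial.coe_X]
    exact this
  show thetaPoly hx hJ ((MvPowerSeries.truncTotalAlgHom σ 𝒪 n) (MvPowerSeries.X i)) = _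
  rw [h1]
  show Ideal.Quotient.mk J (MvPolynomial.aeval x (MvPolynomial.X i)) = _
  rw [MvPolynomial.aeval_X]

theorem factor_theta {x : σ → URing 𝒪} (hx : ∀ i, x i ∈ m0 F) {J J' : Ideal (URing 𝒪)} {a b : ℕ}
    (hJ : m0 F ^ a ≤ J) (hJ' : m0 F ^ b ≤ J') (hab : b ≤ a) (hle : J ≤ J')
    (p : MvPowerSeries σ 𝒪) :
    Ideal.Quotient.factor hle (theta hx hJ p) = theta hx hJ' p := by
  rw [theta_apply, theta_apply, Ideal.Quotient.factor_mk, Ideal.Quotient.eq, ← map_sub]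
  exact hJ' (aeval_mem_m0_pow hx
    (MvPowerSeries.truncTotal_sub_truncTotal_mem_pow_idealOfVars hab le_rfl p))

section

variable {x : σ → URing 𝒪} (hx : ∀ i, x i ∈ m0 F)
  (hgen : ∀ J, Adm F 𝒟 J → m0 F ≤ Ideal.span (Set.range x) ⊔ (m0 F ^ 2 ⊔ pU 𝒪 ⊔ J))
  {J : Ideal (URing 𝒪)} (hA : Adm F 𝒟 J) {n : ℕ} (hJ : m0 F ^ n ≤ J)

include hA in
theorem isLocalHom_theta :
    haveI := hA.1.isLocalRing
    IsLocalHom ((theta hx hJ : MvPowerSeries σ 𝒪 →ₐ[𝒪] (URing 𝒪 ⧸ J)) :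
      MvPowerSeries σ 𝒪 →+* (URing 𝒪 ⧸ J)) := by
  haveI := hA.1.isLocalRing
  exact isLocalHom_of_algHom _ hA.1.test.isLocalHom hA.1.test.residue_surjective

include hgen hA in
theorem maximalIdeal_eq_map_theta :
    haveI := hA.1.isLocalRing
    maximalIdeal (URing 𝒪 ⧸ J) = (maximalIdeal (MvPowerSeries σ 𝒪)).map
      (theta hx hJ : MvPowerSeries σ 𝒪 →ₐ[𝒪] (URing 𝒪 ⧸ J)) := by
  haveI := hA.1.isLocalRing
  haveI := hA.1.fin
  haveI hloc := isLocalHom_theta hx hA hJ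
  refine le_antisymm ?_ ?_
  · refine Submodule.le_of_le_smul_of_le_jacobson_bot (I := maximalIdeal (URing 𝒪 ⧸ J))
      (IsNoetherian.noetherian _) (IsLocalRing.maximalIdeal_le_jacobson _) ?_
    rw [smul_eq_mul, ← pow_two]
    conv_lhs => rw [hA.1.maximalIdeal_eq]
    refine (Ideal.map_mono (hgen J hA)).trans ?_
    rw [Ideal.map_sup, Ideal.map_sup, Ideal.map_sup, Ideal.map_pow, ← hA.1.maximalIdeal_eq]
    refine sup_le ?_ (sup_le (sup_le ?_ ?_) ?_)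
    · rw [Ideal.map_span, Ideal.span_le]
      rintro _ ⟨_, ⟨i, rfl⟩, rfl⟩
      rw [← theta_X hx hJ]
      exact (le_sup_left : _ ≤ _ ⊔ maximalIdeal (URing 𝒪 ⧸ J) ^ 2)
        (Ideal.mem_map_of_mem _ (X_mem_maximalIdeal i))
    · exact le_sup_right
    · refine le_sup_of_le_left ?_
      rw [pU, Ideal.map_map, Ideal.map_le_iff_le_comap]
      intro c hc
      rw [Ideal.mem_comap]
      have h1 : ((Ideal.Quotient.mk J).comp (algebraMap 𝒪 (URing 𝒪))) c =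
          theta hx hJ (algebraMap 𝒪 (MvPowerSeries σ 𝒪) c) := by
        rw [AlgHom.commutes]; rfl
      rw [h1]
      refine Ideal.mem_map_of_mem _ ?_
      have h2 := C_mem_pow (σ := σ) (n := 1) (c := c) (by rw [pow_one]; exact hc)
      rw [pow_one] at h2
      exact h2
    · rw [Ideal.map_quotient_self]
      exact bot_le
  · exact ((IsLocalRing.local_hom_TFAE _).out 0 2).mp hloc

include hgen hA in
theorem theta_surjective : Function.Surjective (theta hx hJ) := by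
  haveI := hA.1.isLocalRing
  haveI := hA.1.fin
  letI : Algebra (MvPowerSeries σ 𝒪) (URing 𝒪 ⧸ J) :=
    ((theta hx hJ : MvPowerSeries σ 𝒪 →ₐ[𝒪] (URing 𝒪 ⧸ J)) :
      MvPowerSeries σ 𝒪 →+* (URing 𝒪 ⧸ J)).toAlgebra
  have halg : ∀ p : MvPowerSeries σ 𝒪, algebraMap _ (URing 𝒪 ⧸ J) p = theta hx hJ p :=
    fun p => rfl
  have hfin : Module.Finite (MvPowerSeries σ 𝒪) (URing 𝒪 ⧸ J) := inferInstance
  have key : (⊤ : Submodule (MvPowerSeries σ 𝒪) (URing 𝒪 ⧸ J)) ≤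
      LinearMap.range (Algebra.linearMap (MvPowerSeries σ 𝒪) (URing 𝒪 ⧸ J)) := by
    refine Submodule.le_of_le_smul_of_le_jacobson_bot
      (I := maximalIdeal (MvPowerSeries σ 𝒪)) hfin.fg_top
      (IsLocalRing.maximalIdeal_le_jacobson _) ?_
    intro b _
    obtain ⟨c, hc⟩ := hA.1.test.residue_surjective (residue _ b)
    have h1 : b - algebraMap 𝒪 (URing 𝒪 ⧸ J) c ∈ maximalIdeal (URing 𝒪 ⧸ J) := by
      rw [← residue_eq_zero_iff, map_sub, sub_eq_zero]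
      exact hc.symm
    have h2 : b = algebraMap 𝒪 (URing 𝒪 ⧸ J) c + (b - algebraMap 𝒪 (URing 𝒪 ⧸ J) c) := by ring
    rw [h2]
    refine Submodule.add_mem_sup ?_ ?_
    · refine ⟨algebraMap 𝒪 _ c, ?_⟩
      show theta hx hJ (algebraMap 𝒪 _ c) = _
      rw [AlgHom.commutes]
    · rw [maximalIdeal_eq_map_theta hx hgen hA hJ] at h1
      rw [Ideal.smul_top_eq_map]
      exact h1
  intro b
  obtain ⟨p, hp⟩ := key (Submodule.mem_top (x := b))
  exact ⟨p, hp⟩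

include hA in
theorem theta_eq_zero_of_mem_pow {p : MvPowerSeries σ 𝒪}
    (hp : p ∈ maximalIdeal (MvPowerSeries σ 𝒪) ^ n) : theta hx hJ p = 0 := by
  haveI := hA.1.isLocalRing
  have h1 := map_mem_maximalIdeal_pow _ (isLocalHom_theta hx hA hJ) hp
  rw [hA.1.maximalIdeal_eq, ← Ideal.map_pow] at h1
  have h2 : (m0 F ^ n).map (Ideal.Quotient.mk J) = ⊥ := by
    rw [eq_bot_iff]
    refine (Ideal.map_mono hJ).trans ?_
    rw [Ideal.map_quotient_self]
  rw [h2] at h1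
  exact h1

end

end Fermat.Agent.UnivDef
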