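import Mathlib
import Fermat.Prelude.Def_GaloisRep_Adic
import Fermat.Prelude.Def_GaloisRep_DeformationCondition
import Fermat.Prelude.Thm_IsLocalRing_isAdicComplete_of_module_finite
import Fermat.Agent.UnivDef.SeriesMap

/-!
# The universal deformation ring as a quotient of a power series ring
-/

set_option autoImplicit false
set_option linter.style.haveILetI false
set_option linter.unusedSectionVars false

noncomputable section

open scoped TensorProduct
open IsLocalRing GaloisRep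

namespace Fermat.Agent.UnivDef

local notation "GQ" => (AlgebraicClosure ℚ ≃ₐ[ℚ] AlgebraicClosure ℚ)

variable {𝒪 : Type} [CommRing 𝒪] [IsLocalRing 𝒪]
variable {ρbar : ResidualGaloisRep (ResidueField 𝒪)} {F : FrameData 𝒪 ρbar}
variable {𝒟 : ∀ ⦃A : Type⦄ [CommRing A] [IsLocalRing A] [Algebra 𝒪 A], GaloisRepAdic A → Prop}
variable {σ : Type} [Fintype σ]

section Min

variable [Finite (ResidueField 𝒪)] [IsNoetherianRing 𝒪]
  {x : σ → URing 𝒪} (hx : ∀ i, x i ∈ m0 F)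
  (hgen : ∀ J, Adm F 𝒟 J → m0 F ≤ Ideal.span (Set.range x) ⊔ (m0 F ^ 2 ⊔ pU 𝒪 ⊔ J))

include hx hgen in
theorem card_quotient_le {J : Ideal (URing 𝒪)} (hA : Adm F 𝒟 J) {n : ℕ} (hJ : m0 F ^ n ≤ J) :
    Finite (MvPowerSeries σ 𝒪 ⧸ maximalIdeal (MvPowerSeries σ 𝒪) ^ n) ∧
    Nat.card (URing 𝒪 ⧸ J) ≤
      Nat.card (MvPowerSeries σ 𝒪 ⧸ maximalIdeal (MvPowerSeries σ 𝒪) ^ n) := by
  haveI h0 : Finite (MvPowerSeries σ 𝒪 ⧸ maximalIdeal (MvPowerSeries σ 𝒪)) := by
    have hinj : Function.Injective (Ideal.Quotient.lift (maximalIdeal (MvPowerSeries σ 𝒪))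
        ((residue 𝒪).comp (MvPowerSeries.constantCoeff (σ := σ) (R := 𝒪))) (by
          intro f hf
          rw [RingHom.comp_apply, residue_eq_zero_iff]
          intro h
          exact hf (MvPowerSeries.isUnit_iff_constantCoeff.mpr h))) := by
      haveI : Nontrivial (ResidueField 𝒪) := inferInstance
      letI : Field (MvPowerSeries σ 𝒪 ⧸ maximalIdeal (MvPowerSeries σ 𝒪)) :=
        Ideal.Quotient.field _
      exact RingHom.injective _
    exact Finite.of_injective _ hinj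
  haveI h1 := Ideal.finite_quotient_pow (I := maximalIdeal (MvPowerSeries σ 𝒪))
    (IsNoetherian.noetherian _) n
  refine ⟨h1, ?_⟩
  let φ : (MvPowerSeries σ 𝒪 ⧸ maximalIdeal (MvPowerSeries σ 𝒪) ^ n) →ₐ[𝒪] (URing 𝒪 ⧸ J) :=
    Ideal.Quotient.liftₐ _ (theta hx hJ) fun p hp => theta_eq_zero_of_mem_pow hx hA hJ hp
  refine Nat.card_le_card_of_surjective φ fun b => ?_
  obtain ⟨p, hp⟩ := theta_surjective hx hgen hA hJ b
  exact ⟨Ideal.Quotient.mk _ p, hp⟩

include hx hgen in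
theorem exists_min (h𝒟 : IsDeformationCondition 𝒪 𝒟)
    (hbar : 𝒟 (GaloisRepAdic.ofResidualGaloisRep ρbar)) (n : ℕ) :
    ∃ J : Ideal (URing 𝒪), Adm F 𝒟 J ∧ m0 F ^ (n + 1) ≤ J ∧
      ∀ J', Adm F 𝒟 J' → m0 F ^ (n + 1) ≤ J' → J ≤ J' := by
  let S : Set ℕ := {c | ∃ J : Ideal (URing 𝒪), Adm F 𝒟 J ∧ m0 F ^ (n + 1) ≤ J ∧
    Nat.card (URing 𝒪 ⧸ J) = c}
  have hne : S.Nonempty := ⟨_, m0 F, adm_m0 h𝒟 hbar, Ideal.pow_le_self (by omega), rfl⟩
  have hbd : BddAbove S := by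
    refine ⟨Nat.card (MvPowerSeries σ 𝒪 ⧸ maximalIdeal (MvPowerSeries σ 𝒪) ^ (n + 1)), ?_⟩
    rintro _ ⟨J, hA, hJ, rfl⟩
    exact (card_quotient_le hx hgen hA hJ).2
  obtain ⟨J, hA, hJ, hc⟩ := Nat.sSup_mem hne hbd
  refine ⟨J, hA, hJ, fun J' hA' hJ' => ?_⟩
  have hA'' := hA.inf h𝒟 hA'
  have hJ'' : m0 F ^ (n + 1) ≤ J ⊓ J' := le_inf hJ hJ'
  have h1 : Nat.card (URing 𝒪 ⧸ (J ⊓ J')) ≤ Nat.card (URing 𝒪 ⧸ J) := by
    rw [hc]
    exact le_csSup hbd ⟨_, hA'', hJ'', rfl⟩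
  haveI := hA''.1.fin
  haveI := hA.1.fin
  have hsurj : Function.Surjective (Ideal.Quotient.factor (inf_le_left : J ⊓ J' ≤ J)) :=
    Ideal.Quotient.factor_surjective _
  have hbij := (Nat.bijective_iff_surjective_and_card
    (Ideal.Quotient.factor (inf_le_left : J ⊓ J' ≤ J))).mpr
    ⟨hsurj, le_antisymm h1 (Nat.card_le_card_of_surjective _ hsurj)⟩
  intro u hu
  have h2 : Ideal.Quotient.mk (J ⊓ J') u = 0 := by
    apply hbij.1
    rw [Ideal.Quotient.factor_mk, map_zero, Ideal.Quotient.eq_zero_iff_mem]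
    exact hu
  exact (Ideal.Quotient.eq_zero_iff_mem.mp h2).2

end Min

/-- The tower of minimal admissible ideals. -/
structure Tower (F : FrameData 𝒪 ρbar)
    (𝒟 : ∀ ⦃A : Type⦄ [CommRing A] [IsLocalRing A] [Algebra 𝒪 A], GaloisRepAdic A → Prop) where
  J : ℕ → Ideal (URing 𝒪)
  adm : ∀ n, Adm F 𝒟 (J n)
  pow_le : ∀ n, m0 F ^ (n + 1) ≤ J n
  min : ∀ n J', Adm F 𝒟 J' → m0 F ^ (n + 1) ≤ J' → J n ≤ J'

namespace Tower

variable (T : Tower F 𝒟)

theorem succ_le (n : ℕ) : T.J (n + 1) ≤ T.J n :=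
  T.min (n + 1) _ (T.adm n) ((Ideal.pow_le_pow_right (by omega)).trans (T.pow_le n))

theorem antitone : Antitone T.J := antitone_nat_of_succ_le T.succ_le

theorem eq_sup (h𝒟 : IsDeformationCondition 𝒪 𝒟) (n : ℕ) :
    T.J n = T.J (n + 1) ⊔ m0 F ^ (n + 1) := by
  refine le_antisymm (T.min n _ ((T.adm (n + 1)).mono h𝒟 le_sup_left
    (sup_le (T.adm _).1.le (Ideal.pow_le_self (by omega)))) le_sup_right)
    (sup_le (T.succ_le n) (T.pow_le n))

end Tower

section Ring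

variable {x : σ → URing 𝒪} (hx : ∀ i, x i ∈ m0 F)
  (hgen : ∀ J, Adm F 𝒟 J → m0 F ≤ Ideal.span (Set.range x) ⊔ (m0 F ^ 2 ⊔ pU 𝒪 ⊔ J))
  (T : Tower F 𝒟)

/-- The structure maps out of the power series ring. -/
def thetaT (n : ℕ) : MvPowerSeries σ 𝒪 →ₐ[𝒪] (URing 𝒪 ⧸ T.J n) := theta hx (T.pow_le n)

include hgen in
theorem thetaT_surjective (n : ℕ) : Function.Surjective (thetaT hx T n) :=
  theta_surjective hx hgen (T.adm n) (T.pow_le n)

theorem factor_thetaT {m n : ℕ} (h : m ≤ n) (p : MvPowerSeries σ 𝒪) :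
    Ideal.Quotient.factor (T.antitone h) (thetaT hx T n p) = thetaT hx T m p :=
  factor_theta hx _ _ (by omega) _ p

/-- The kernels. -/
def kerT (n : ℕ) : Ideal (MvPowerSeries σ 𝒪) := RingHom.ker (thetaT hx T n)

theorem mem_kerT {n : ℕ} {p : MvPowerSeries σ 𝒪} : p ∈ kerT hx T n ↔ thetaT hx T n p = 0 :=
  RingHom.mem_ker

theorem pow_le_kerT (n : ℕ) : maximalIdeal (MvPowerSeries σ 𝒪) ^ (n + 1) ≤ kerT hx T n :=
  fun _ hp => theta_eq_zero_of_mem_pow hx (T.adm n) (T.pow_le n) hp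

theorem kerT_antitone {m n : ℕ} (h : m ≤ n) : kerT hx T n ≤ kerT hx T m := by
  intro p hp
  rw [mem_kerT] at hp ⊢
  rw [← factor_thetaT hx T h, hp, map_zero]

include hgen in
theorem kerT_le_sup (h𝒟 : IsDeformationCondition 𝒪 𝒟) (n : ℕ) :
    kerT hx T n ≤ kerT hx T (n + 1) ⊔ maximalIdeal (MvPowerSeries σ 𝒪) ^ (n + 1) := by
  haveI := (T.adm (n + 1)).1.isLocalRing
  intro p hp
  rw [mem_kerT, ← factor_thetaT hx T (Nat.le_succ n)] at hp
  obtain ⟨u, hu⟩ := Ideal.Quotient.mk_surjective (thetaT hx T (n + 1) p)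
  rw [← hu, Ideal.Quotient.factor_mk, Ideal.Quotient.eq_zero_iff_mem, T.eq_sup h𝒟 n] at hp
  obtain ⟨a, ha, b, hb, hab⟩ := Submodule.mem_sup.mp hp
  have h1 : thetaT hx T (n + 1) p ∈
      maximalIdeal (URing 𝒪 ⧸ T.J (n + 1)) ^ (n + 1) := by
    rw [← hu, ← hab, map_add, Ideal.Quotient.eq_zero_iff_mem.mpr ha, zero_add,
      (T.adm (n + 1)).1.maximalIdeal_eq, ← Ideal.map_pow]
    exact Ideal.mem_map_of_mem _ hb
  rw [maximalIdeal_eq_map_theta hx hgen (T.adm (n + 1)) (T.pow_le (n + 1)), ← Ideal.map_pow] at h1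
  obtain ⟨y, hy, hyp⟩ := (Ideal.mem_map_iff_of_surjective _
    (theta_surjective hx hgen (T.adm (n + 1)) (T.pow_le (n + 1)))).mp h1
  have h2 : p = (p - y) + y := by ring
  rw [h2]
  refine Submodule.add_mem_sup ?_ hy
  rw [mem_kerT, map_sub, sub_eq_zero]
  exact hyp.symm

/-- The intersection of the kernels. -/
def kerInf : Ideal (MvPowerSeries σ 𝒪) := ⨅ n, kerT hx T n

include hgen in
theorem kerT_eq_sup [IsAdicComplete (maximalIdeal 𝒪) 𝒪] (h𝒟 : IsDeformationCondition 𝒪 𝒟)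
    (n : ℕ) :
    kerT hx T n = kerInf hx T ⊔ maximalIdeal (MvPowerSeries σ 𝒪) ^ (n + 1) := by
  refine le_antisymm ?_ (sup_le (iInf_le _ n) (pow_le_kerT hx T n))
  intro p hp
  -- the successive approximations
  have hstep : ∀ (m : ℕ) (q : kerT hx T m), ∃ q' : kerT hx T (m + 1),
      (q : MvPowerSeries σ 𝒪) - q' ∈ maximalIdeal (MvPowerSeries σ 𝒪) ^ (m + 1) := by
    rintro m ⟨q, hq⟩
    obtain ⟨a, ha, b, hb, hab⟩ := Submodule.mem_sup.mp (kerT_le_sup hx hgen T h𝒟 m hq)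
    refine ⟨⟨a, ha⟩, ?_⟩
    show q - a ∈ _
    rw [← hab]
    simpa using hb
  choose nxt hnxt using hstep
  let s : ∀ k : ℕ, kerT hx T (n + k) := fun k =>
    Nat.rec (motive := fun k => kerT hx T (n + k)) ⟨p, hp⟩ (fun k q => nxt (n + k) q) k
  have hs : ∀ k, (s k : MvPowerSeries σ 𝒪) - s (k + 1) ∈
      maximalIdeal (MvPowerSeries σ 𝒪) ^ (n + k + 1) := fun k => hnxt (n + k) (s k)
  have hs' : ∀ k l, k ≤ l → (s k : MvPowerSeries σ 𝒪) - s l ∈
      maximalIdeal (MvPowerSeries σ 𝒪) ^ (n + k + 1) := by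
    intro k l hkl
    induction l, hkl using Nat.le_induction with
    | base => rw [sub_self]; exact Ideal.zero_mem _
    | succ l hkl ih =>
      have h1 := Ideal.pow_le_pow_right (show n + k + 1 ≤ n + l + 1 by omega) (hs l)
      have h2 := Ideal.add_mem _ ih h1
      simpa using h2
  obtain ⟨L, hL⟩ := IsPrecomplete.prec' (I := maximalIdeal (MvPowerSeries σ 𝒪))
    (fun k => (s k : MvPowerSeries σ 𝒪)) (by
      intro k l hkl
      rw [SModEq.sub_mem, smul_eq_mul, Ideal.mul_top]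
      exact Ideal.pow_le_pow_right (by omega) (hs' k l hkl))
  have hL' : ∀ k, (s k : MvPowerSeries σ 𝒪) - L ∈
      maximalIdeal (MvPowerSeries σ 𝒪) ^ (n + k + 1) := by
    intro k
    have h1 := hL (n + k + 1)
    rw [SModEq.sub_mem, smul_eq_mul, Ideal.mul_top] at h1
    have h2 := Ideal.add_mem _ (hs' k (n + k + 1) (by omega)) h1
    simpa using h2
  have hLmem : L ∈ kerInf hx T := by
    rw [kerInf, Ideal.mem_iInf]
    intro m
    have h1 : L ∈ kerT hx T (n + m) := by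
      have h2 := Ideal.sub_mem _ (s m).2 (pow_le_kerT hx T (n + m) (hL' m))
      simpa using h2
    exact kerT_antitone hx T (by omega) h1
  have h3 : p = L + (p - L) := by ring
  rw [h3]
  exact Submodule.add_mem_sup hLmem (hL' 0)

/-- The data of a complete Noetherian local ring with quotients the `URing 𝒪 ⧸ J n`. -/
structure LimitData (T : Tower F 𝒟) where
  R : Type
  [instCommRing : CommRing R]
  [instIsLocalRing : IsLocalRing R]
  [instIsNoetherianRing : IsNoetherianRing R]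
  [instIsAdicComplete : IsAdicComplete (IsLocalRing.maximalIdeal R) R]
  [instAlgebra : Algebra 𝒪 R]
  [instIsLocalHom : IsLocalHom (algebraMap 𝒪 R)]
  residue_surjective : Function.Surjective (IsLocalRing.residue R ∘ algebraMap 𝒪 R)
  π : ∀ n, R →ₐ[𝒪] (URing 𝒪 ⧸ T.J n)
  π_surjective : ∀ n, Function.Surjective (π n)
  ker_π : ∀ n, RingHom.ker (π n) = maximalIdeal R ^ (n + 1)
  factor_π : ∀ {m n : ℕ} (h : m ≤ n) (y : R),
    Ideal.Quotient.factor (T.antitone h) (π n y) = π m y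

attribute [instance] LimitData.instCommRing LimitData.instIsLocalRing
  LimitData.instIsNoetherianRing LimitData.instIsAdicComplete
  LimitData.instAlgebra LimitData.instIsLocalHom

include hx hgen in
theorem nonempty_limitData [IsNoetherianRing 𝒪] [IsAdicComplete (maximalIdeal 𝒪) 𝒪]
    (h𝒟 : IsDeformationCondition 𝒪 𝒟) : Nonempty (LimitData T) := by
  have hle : ∀ n, kerInf hx T ≤ kerT hx T n := fun n => iInf_le _ n
  have hne : kerInf hx T ≠ ⊤ := by
    intro h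
    have h1 : (1 : MvPowerSeries σ 𝒪) ∈ kerT hx T 0 := hle 0 (h ▸ Submodule.mem_top)
    rw [mem_kerT, map_one] at h1
    haveI := (T.adm 0).1.isLocalRing
    exact one_ne_zero h1
  haveI hnt : Nontrivial (MvPowerSeries σ 𝒪 ⧸ kerInf hx T) := Ideal.Quotient.nontrivial_iff.mpr hne
  haveI hloc : IsLocalRing (MvPowerSeries σ 𝒪 ⧸ kerInf hx T) :=
    IsLocalRing.of_surjective' (Ideal.Quotient.mk (kerInf hx T)) Ideal.Quotient.mk_surjective
  haveI hlh : IsLocalHom (Ideal.Quotient.mk (kerInf hx T)) :=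
    IsLocalHom.of_surjective _ Ideal.Quotient.mk_surjective
  haveI hlh' : IsLocalHom (algebraMap (MvPowerSeries σ 𝒪) (MvPowerSeries σ 𝒪 ⧸ kerInf hx T)) :=
    hlh
  haveI hcomp : IsAdicComplete (maximalIdeal (MvPowerSeries σ 𝒪 ⧸ kerInf hx T))
      (MvPowerSeries σ 𝒪 ⧸ kerInf hx T) :=
    IsLocalRing.isAdicComplete_of_module_finite (𝒪 := MvPowerSeries σ 𝒪)
  have hmax : maximalIdeal (MvPowerSeries σ 𝒪 ⧸ kerInf hx T) =
      (maximalIdeal (MvPowerSeries σ 𝒪)).map (Ideal.Quotient.mk (kerInf hx T)) := by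
    have : ((maximalIdeal (MvPowerSeries σ 𝒪)).map (Ideal.Quotient.mk (kerInf hx T))).IsMaximal :=
      Ideal.IsMaximal.map_of_surjective_of_ker_le Ideal.Quotient.mk_surjective
        (by rw [Ideal.mk_ker]; exact IsLocalRing.le_maximalIdeal hne)
    exact (IsLocalRing.eq_maximalIdeal this).symm
  haveI hC : IsLocalHom (algebraMap 𝒪 (MvPowerSeries σ 𝒪)) := by
    constructor
    intro c hc
    have := MvPowerSeries.isUnit_iff_constantCoeff.mp hc
    rwa [MvPowerSeries.algebraMap_apply, Algebra.algebraMap_self, RingHom.id_apply,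
      MvPowerSeries.constantCoeff_C] at this
  haveI hlhO : IsLocalHom (algebraMap 𝒪 (MvPowerSeries σ 𝒪 ⧸ kerInf hx T)) := by
    have h1 : algebraMap 𝒪 (MvPowerSeries σ 𝒪 ⧸ kerInf hx T) =
        (Ideal.Quotient.mk (kerInf hx T)).comp (algebraMap 𝒪 (MvPowerSeries σ 𝒪)) := rfl
    rw [h1]
    exact RingHom.isLocalHom_comp _ _
  let π : ∀ n, (MvPowerSeries σ 𝒪 ⧸ kerInf hx T) →ₐ[𝒪] (URing 𝒪 ⧸ T.J n) := fun n =>
    Ideal.Quotient.liftₐ (kerInf hx T) (thetaT hx T n) fun p hp => hle n hp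
  refine ⟨{ R := MvPowerSeries σ 𝒪 ⧸ kerInf hx T
            residue_surjective := ?_
            π := π
            π_surjective := ?_
            ker_π := ?_
            factor_π := ?_ }⟩
  · intro y
    obtain ⟨z, rfl⟩ := residue_surjective y
    obtain ⟨p, rfl⟩ := Ideal.Quotient.mk_surjective z
    refine ⟨MvPowerSeries.constantCoeff p, ?_⟩
    show residue _ (Ideal.Quotient.mk _ (algebraMap 𝒪 (MvPowerSeries σ 𝒪) _)) = _
    rw [← sub_eq_zero, ← map_sub, ← map_sub, residue_eq_zero_iff, hmax]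
    refine Ideal.mem_map_of_mem _ ?_
    intro h
    have := MvPowerSeries.isUnit_iff_constantCoeff.mp h
    rw [map_sub, MvPowerSeries.algebraMap_apply, Algebra.algebraMap_self, RingHom.id_apply,
      MvPowerSeries.constantCoeff_C, sub_self] at this
    exact not_isUnit_zero this
  · intro n b
    obtain ⟨p, hp⟩ := thetaT_surjective hx hgen T n b
    exact ⟨Ideal.Quotient.mk _ p, hp⟩
  · intro n
    rw [hmax, ← Ideal.map_pow]
    ext y
    obtain ⟨p, rfl⟩ := Ideal.Quotient.mk_surjective y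
    have h1 : Ideal.Quotient.mk (kerInf hx T) p ∈ RingHom.ker (π n) ↔ p ∈ kerT hx T n := by
      rw [RingHom.mem_ker, mem_kerT]
      rfl
    rw [h1, kerT_eq_sup hx hgen T h𝒟 n, ← Ideal.mem_comap, Ideal.comap_map_of_surjective' _
      Ideal.Quotient.mk_surjective, Ideal.mk_ker, sup_comm]
  · intro m n h y
    obtain ⟨p, rfl⟩ := Ideal.Quotient.mk_surjective y
    exact factor_thetaT hx T h p

end Ring

end Fermat.Agent.UnivDef
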