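import Mathlib
import Fermat.Prelude.Def_GaloisRep_Adic
import Fermat.Prelude.Def_GaloisRep_DeformationCondition
import Fermat.Prelude.Def_GaloisRep_DeformationRingData
import Fermat.Agent.UnivDef.LimitRing

/-!
# Existence of the universal deformation ring
-/

set_option autoImplicit false
set_option linter.style.haveILetI false
set_option linter.unusedSectionVars false

noncomputable section

open scoped TensorProduct
open IsLocalRing GaloisRep

namespace Fermat.Agent.UnivDef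

local notation "GQ" => (AlgebraicClosure ℚ ≃ₐ[ℚ] AlgebraicClosure ℚ)

variable {𝒪 : Type} [CommRing 𝒪] [IsLocalRing 𝒪]
variable {ρbar : ResidualGaloisRep (ResidueField 𝒪)} {F : FrameData 𝒪 ρbar}
variable {𝒟 : ∀ ⦃A : Type⦄ [CommRing A] [IsLocalRing A] [Algebra 𝒪 A], GaloisRepAdic A → Prop}
variable {T : Tower F 𝒟} (D : LimitData T)

namespace LimitData

theorem exists_lift (n : ℕ) (u : URing 𝒪) : ∃ y : D.R, D.π n y = Ideal.Quotient.mk (T.J n) u :=
  D.π_surjective n _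

theorem eq_zero_of_forall {y : D.R} (h : ∀ n, D.π n y = 0) : y = 0 := by
  refine IsHausdorff.haus' (I := maximalIdeal D.R) y fun n => ?_
  rw [SModEq.zero, smul_eq_mul, Ideal.mul_top]
  have h1 : y ∈ maximalIdeal D.R ^ (n + 1) := by
    rw [← D.ker_π n, RingHom.mem_ker]; exact h n
  exact Ideal.pow_le_pow_right (Nat.le_succ n) h1

theorem ker_π_le (n : ℕ) : RingHom.ker (D.π n) ≤ maximalIdeal D.R ^ n := by
  rw [D.ker_π n]; exact Ideal.pow_le_pow_right (Nat.le_succ n)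

/-- The level `n` map. -/
def liftLevel (n : ℕ) : URing 𝒪 →ₐ[𝒪] D.R ⧸ maximalIdeal D.R ^ n :=
  (Ideal.Quotient.factorₐ 𝒪 (D.ker_π_le n)).comp
  ((Ideal.quotientKerAlgEquivOfSurjective (D.π_surjective n)).symm.toAlgHom.comp
    (Ideal.Quotient.mkₐ 𝒪 (T.J n)))

theorem liftLevel_apply (n : ℕ) (u : URing 𝒪) (y : D.R)
    (h : D.π n y = Ideal.Quotient.mk (T.J n) u) :
    D.liftLevel n u = Ideal.Quotient.mk (maximalIdeal D.R ^ n) y := by
  have h1 : (Ideal.quotientKerAlgEquivOfSurjective (D.π_surjective n)).symm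
      (Ideal.Quotient.mk (T.J n) u) = Ideal.Quotient.mk (RingHom.ker (D.π n)) y := by
    rw [AlgEquiv.symm_apply_eq, ← h]
    rfl
  show Ideal.Quotient.factorₐ 𝒪 (D.ker_π_le n) ((Ideal.quotientKerAlgEquivOfSurjective
    (D.π_surjective n)).symm (Ideal.Quotient.mk (T.J n) u)) = _
  rw [h1]
  rfl

theorem liftLevel_compat {m n : ℕ} (hmn : m ≤ n) :
    (Ideal.Quotient.factorₐ 𝒪 (Ideal.pow_le_pow_right hmn)).comp (D.liftLevel n) =
      D.liftLevel m := by
  refine AlgHom.ext fun u => ?_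
  obtain ⟨y, hy⟩ := D.exists_lift n u
  have hy' : D.π m y = Ideal.Quotient.mk (T.J m) u := by
    rw [← D.factor_π hmn, hy, Ideal.Quotient.factor_mk]
  rw [AlgHom.comp_apply, D.liftLevel_apply n u y hy, D.liftLevel_apply m u y hy']
  rfl

/-- The universal map. -/
def Φ : URing 𝒪 →ₐ[𝒪] D.R :=
  IsAdicComplete.liftAlgHom (maximalIdeal D.R) D.liftLevel D.liftLevel_compat

theorem mk_Φ (n : ℕ) (u : URing 𝒪) :
    Ideal.Quotient.mk (maximalIdeal D.R ^ n) (D.Φ u) = D.liftLevel n u :=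
  IsAdicComplete.mk_liftAlgHom _ D.liftLevel D.liftLevel_compat n u

theorem π_Φ (n : ℕ) (u : URing 𝒪) : D.π n (D.Φ u) = Ideal.Quotient.mk (T.J n) u := by
  obtain ⟨y, hy⟩ := D.exists_lift (n + 1) u
  have h1 := D.mk_Φ (n + 1) u
  rw [D.liftLevel_apply (n + 1) u y hy, Ideal.Quotient.eq, ← D.ker_π n, RingHom.mem_ker,
    map_sub, sub_eq_zero] at h1
  rw [h1, ← D.factor_π (Nat.le_succ n), hy, Ideal.Quotient.factor_mk]

theorem Φ_eq_zero {u : URing 𝒪} (h : ∀ n, u ∈ T.J n) : D.Φ u = 0 :=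
  D.eq_zero_of_forall fun n => by rw [D.π_Φ, Ideal.Quotient.eq_zero_iff_mem]; exact h n

theorem exists_approx (n : ℕ) (y : D.R) : ∃ u : URing 𝒪, y - D.Φ u ∈ maximalIdeal D.R ^ (n + 1) := by
  obtain ⟨u, hu⟩ := Ideal.Quotient.mk_surjective (D.π n y)
  refine ⟨u, ?_⟩
  rw [← D.ker_π n, RingHom.mem_ker, map_sub, D.π_Φ, hu, sub_self]

/-- The universal matrix representation. -/
def rR : GQ →* Matrix (Fin 2) (Fin 2) D.R where
  toFun g := (univMat 𝒪 g).map D.Φ
  map_one' := by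
    have h1 : (1 : Matrix (Fin 2) (Fin 2) D.R) =
      (1 : Matrix (Fin 2) (Fin 2) (URing 𝒪)).map D.Φ := by
      rw [Matrix.map_one _ (map_zero _) (map_one _)]
    rw [h1]
    ext i j
    rw [Matrix.map_apply, Matrix.map_apply, ← sub_eq_zero, ← map_sub]
    exact D.Φ_eq_zero fun n => (T.adm n).1.rel_one i j
  map_mul' a b := by
    rw [← Matrix.map_mul]
    ext i j
    rw [Matrix.map_apply, Matrix.map_apply, ← sub_eq_zero, ← map_sub]
    exact D.Φ_eq_zero fun n => (T.adm n).1.rel_mul a b i j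

theorem rR_apply (g : GQ) (i j : Fin 2) : D.rR g i j = D.Φ (MvPolynomial.X (g, i, j)) := rfl

theorem Φ_mem_maximalIdeal {u : URing 𝒪} (h : u ∈ m0 F) : D.Φ u ∈ maximalIdeal D.R := by
  haveI := (T.adm 0).1.isLocalRing
  intro hu
  have h1 := hu.map (D.π 0)
  rw [D.π_Φ] at h1
  exact ((T.adm 0).1.mk_mem_maximalIdeal u).mpr h h1

theorem isNorm_rR : IsNorm F D.rR := by
  have hc : ∀ (c : GQ →₀ 𝒪) (i j : Fin 2), comb c D.rR i j =
      D.Φ (comb c (univMat 𝒪) i j) := fun c i j =>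
    comb_univMat_map D.Φ c _ (fun g i j => rfl) i j
  refine ⟨?_, ?_, ?_, ?_, ?_⟩
  · intro n
    obtain ⟨L, hL, h1⟩ := (T.adm n).1.rel_cont
    refine ⟨L, hL, fun σ hσ i j => ?_⟩
    have h2 : (D.rR σ - 1) i j = D.Φ ((univMat 𝒪 σ - 1) i j) := by
      rw [Matrix.sub_apply, Matrix.sub_apply, map_sub, D.rR_apply, Matrix.one_apply,
        Matrix.one_apply, univMat_apply]
      split_ifs <;> simp
    rw [h2]
    refine Ideal.pow_le_pow_right (Nat.le_succ n) ?_
    rw [← D.ker_π n, RingHom.mem_ker, D.π_Φ, Ideal.Quotient.eq_zero_iff_mem]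
    exact h1 σ hσ i j
  · intro g i j
    have h1 : D.rR g i j - algebraMap 𝒪 D.R (F.lift g i j) =
      D.Φ (MvPolynomial.X (g, i, j) - algebraMap 𝒪 (URing 𝒪) (F.lift g i j)) := by
      rw [map_sub, AlgHom.commutes]; rfl
    rw [h1]
    refine D.Φ_mem_maximalIdeal ?_
    rw [mem_m0, map_sub, aug_X, aug_algebraMap, sub_self]
  · rw [hc]; exact D.Φ_eq_zero fun n => (T.adm n).1.n1
  · rw [hc]; exact D.Φ_eq_zero fun n => (T.adm n).1.n2
  · rw [hc, ← sub_eq_zero, ← map_one D.Φ, ← map_sub]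
    exact D.Φ_eq_zero fun n => (T.adm n).1.n3

theorem isOfType (h𝒟 : IsDeformationCondition 𝒪 𝒟) : 𝒟 (ofMat D.rR D.isNorm_rR.cont) := by
  refine (h𝒟.iff_forall_surjective D.instIsLocalHom D.residue_surjective _).mpr ?_
  intro B _ _ _ hB q hq _
  haveI := hB.isArtinian
  obtain ⟨N, hN⟩ := exists_pow_eq_bot (A := B)
  obtain ⟨hp, hD⟩ := T.adm N
  haveI := hp.isLocalRing
  have hkill : ∀ u ∈ T.J N, (q.comp D.Φ) u = 0 := by
    intro u hu
    have h1 : D.Φ u ∈ maximalIdeal D.R ^ N := by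
      refine Ideal.pow_le_pow_right (Nat.le_succ N) ?_
      rw [← D.ker_π N, RingHom.mem_ker, D.π_Φ, Ideal.Quotient.eq_zero_iff_mem]
      exact hu
    have h2 := map_mem_maximalIdeal_pow _ hq h1
    rw [hN] at h2
    exact h2
  let q' : (URing 𝒪 ⧸ T.J N) →ₐ[𝒪] B := Ideal.Quotient.liftₐ (T.J N) (q.comp D.Φ) hkill
  have hq' : IsLocalHom (q' : (URing 𝒪 ⧸ T.J N) →+* B) :=
    isLocalHom_of_algHom q' hB.isLocalHom hB.residue_surjective
  have hmat : mapMat (q : D.R →+* B) D.rR = mapMat (q' : (URing 𝒪 ⧸ T.J N) →+* B) hp.rep := by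
    refine MonoidHom.ext fun g => ?_
    ext i j
    rfl
  have hn := D.isNorm_rR.map F q hq
  have hn' := hp.isNorm.map F q' hq'
  obtain ⟨e₁⟩ := ofMat_baseChangeAlong _ hq D.isNorm_rR.cont hn.cont
  obtain ⟨e₂⟩ := ofMat_baseChangeAlong _ hq' hp.isNorm.cont hn'.cont
  simp only [hmat] at e₁
  exact h𝒟.of_isEquiv hB ⟨e₂.trans e₁.symm⟩ (h𝒟.baseChangeAlong hp.test hB q' hq' hD)

section Universal

variable {A : Type} [CommRing A] [IsLocalRing A] [IsNoetherianRing A]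
  [IsAdicComplete (maximalIdeal A) A] [Algebra 𝒪 A] [IsLocalHom (algebraMap 𝒪 A)]

theorem test_quotient_pow [Finite (ResidueField 𝒪)]
    (hsurj : Function.Surjective (residue A ∘ algebraMap 𝒪 A)) (n : ℕ) :
    ∃ (_ : IsLocalRing (A ⧸ maximalIdeal A ^ (n + 1))),
      IsArtinianTestAlgebra 𝒪 (A ⧸ maximalIdeal A ^ (n + 1)) ∧
      maximalIdeal (A ⧸ maximalIdeal A ^ (n + 1)) ^ (n + 1) = ⊥ := by
  have hne : maximalIdeal A ^ (n + 1) ≠ ⊤ := by
    intro h
    have h1 : (⊤ : Ideal A) ≤ maximalIdeal A := h ▸ Ideal.pow_le_self (by omega)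
    exact (IsLocalRing.maximalIdeal.isMaximal A).ne_top (top_le_iff.mp h1)
  haveI hnt : Nontrivial (A ⧸ maximalIdeal A ^ (n + 1)) := Ideal.Quotient.nontrivial_iff.mpr hne
  haveI hloc : IsLocalRing (A ⧸ maximalIdeal A ^ (n + 1)) :=
    IsLocalRing.of_surjective' (Ideal.Quotient.mk _) Ideal.Quotient.mk_surjective
  haveI hlh : IsLocalHom (Ideal.Quotient.mk (maximalIdeal A ^ (n + 1))) :=
    IsLocalHom.of_surjective _ Ideal.Quotient.mk_surjective
  have hmax : maximalIdeal (A ⧸ maximalIdeal A ^ (n + 1)) =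
      (maximalIdeal A).map (Ideal.Quotient.mk (maximalIdeal A ^ (n + 1))) := by
    have : ((maximalIdeal A).map (Ideal.Quotient.mk (maximalIdeal A ^ (n + 1)))).IsMaximal :=
      Ideal.IsMaximal.map_of_surjective_of_ker_le Ideal.Quotient.mk_surjective
        (by rw [Ideal.mk_ker]; exact IsLocalRing.le_maximalIdeal hne)
    exact (IsLocalRing.eq_maximalIdeal this).symm
  refine ⟨hloc, ⟨?_, ?_, ?_⟩, ?_⟩
  · have h1 : algebraMap 𝒪 (A ⧸ maximalIdeal A ^ (n + 1)) =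
        (Ideal.Quotient.mk (maximalIdeal A ^ (n + 1))).comp (algebraMap 𝒪 A) := rfl
    rw [h1]
    exact RingHom.isLocalHom_comp _ _
  · intro y
    obtain ⟨z, rfl⟩ := IsLocalRing.residue_surjective y
    obtain ⟨p, rfl⟩ := Ideal.Quotient.mk_surjective z
    obtain ⟨c, hc⟩ := hsurj (residue A p)
    refine ⟨c, ?_⟩
    show residue _ (Ideal.Quotient.mk _ (algebraMap 𝒪 A c)) = _
    rw [← sub_eq_zero, ← map_sub, ← map_sub, residue_eq_zero_iff, hmax]
    refine Ideal.mem_map_of_mem _ ?_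
    rw [← residue_eq_zero_iff, map_sub, sub_eq_zero]
    exact hc
  · haveI : Finite (A ⧸ maximalIdeal A) := by
      have h1 : Finite (ResidueField A) := by
        refine Finite.of_surjective (ResidueField.map (algebraMap 𝒪 A)) fun x => ?_
        obtain ⟨c, hc⟩ := hsurj x
        exact ⟨residue 𝒪 c, by rw [ResidueField.map_residue]; exact hc⟩
      exact h1
    haveI := Ideal.finite_quotient_pow (I := maximalIdeal A) (IsNoetherian.noetherian _) (n + 1)
    infer_instance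
  · rw [hmax, ← Ideal.map_pow, Ideal.map_quotient_self]

/-- The normalised representation of a deformation over a complete ring factors through the
tower. -/
theorem ev_mem_pow [Finite (ResidueField 𝒪)] (h𝒟 : IsDeformationCondition 𝒪 𝒟)
    (hsurj : Function.Surjective (residue A ∘ algebraMap 𝒪 A)) (ρA : GaloisRepAdic A)
    (hD : 𝒟 ρA) {r : GQ →* Matrix (Fin 2) (Fin 2) A} (hr : IsNorm F r)
    (he : ρA.IsEquiv (ofMat r hr.cont)) (T : Tower F 𝒟) (n : ℕ) {u : URing 𝒪}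
    (hu : u ∈ T.J n) : ev r u ∈ maximalIdeal A ^ (n + 1) := by
  obtain ⟨hloc, htest, hpow⟩ := test_quotient_pow (A := A) hsurj n
  let q : A →ₐ[𝒪] (A ⧸ maximalIdeal A ^ (n + 1)) := Ideal.Quotient.mkₐ 𝒪 _
  have hq : IsLocalHom (q : A →+* (A ⧸ maximalIdeal A ^ (n + 1))) :=
    isLocalHom_of_algHom q htest.isLocalHom htest.residue_surjective
  have hn := hr.map F q hq
  have h1 := (h𝒟.iff_forall_surjective (A := A) inferInstance hsurj ρA).mp hD htest q hq
    Ideal.Quotient.mk_surjective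
  obtain ⟨e⟩ := he
  obtain ⟨e₂⟩ := ofMat_baseChangeAlong _ hq hr.cont hn.cont
  have h2 : 𝒟 (ofMat (mapMat (q : A →+* (A ⧸ maximalIdeal A ^ (n + 1))) r) hn.cont) :=
    h𝒟.of_isEquiv htest ⟨(e.baseChangeAlong _ hq).trans e₂⟩ h1
  have h3 := adm_ker h𝒟 htest hn h2
  have hev : ∀ v : URing 𝒪, ev (mapMat (q : A →+* (A ⧸ maximalIdeal A ^ (n + 1))) r) v =
      q (ev r v) := by
    intro v
    have h4 : (ev (mapMat (q : A →+* (A ⧸ maximalIdeal A ^ (n + 1))) r) :
        URing 𝒪 →ₐ[𝒪] (A ⧸ maximalIdeal A ^ (n + 1))) = q.comp (ev r) := by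
      refine algHom_ext_X fun g i j => ?_
      rw [ev_X, AlgHom.comp_apply, ev_X]
      rfl
    rw [h4]; rfl
  have h4 : m0 F ^ (n + 1) ≤ RingHom.ker (ev (mapMat
      (q : A →+* (A ⧸ maximalIdeal A ^ (n + 1))) r) :
      URing 𝒪 →ₐ[𝒪] (A ⧸ maximalIdeal A ^ (n + 1))) := by
    intro v hv
    rw [RingHom.mem_ker, ← Ideal.mem_bot, ← hpow]
    have h5 : (m0 F).map (ev (mapMat (q : A →+* (A ⧸ maximalIdeal A ^ (n + 1))) r) :
        URing 𝒪 →ₐ[𝒪] (A ⧸ maximalIdeal A ^ (n + 1))) ≤ maximalIdeal _ := by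
      rw [Ideal.map_le_iff_le_comap]
      intro w hw
      haveI := htest.isLocalHom
      exact (ev_mem_maximalIdeal_iff F hn.res w).mpr hw
    refine Ideal.pow_right_mono h5 (n + 1) ?_
    rw [← Ideal.map_pow]
    exact Ideal.mem_map_of_mem _ hv
  have h5 := T.min n _ h3 h4 hu
  rw [RingHom.mem_ker, hev] at h5
  exact Ideal.Quotient.eq_zero_iff_mem.mp h5

/-- Two maps out of the universal ring agree as soon as they agree on the universal entries. -/
theorem algHom_eq_of_comp_Φ_eq {φ ψ : D.R →ₐ[𝒪] A}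
    (hφ : IsLocalHom (φ : D.R →+* A)) (hψ : IsLocalHom (ψ : D.R →+* A))
    (h : φ.comp D.Φ = ψ.comp D.Φ) : φ = ψ := by
  refine AlgHom.ext fun y => ?_
  rw [← sub_eq_zero]
  refine IsHausdorff.haus' (I := maximalIdeal A) _ fun n => ?_
  rw [SModEq.zero, smul_eq_mul, Ideal.mul_top]
  obtain ⟨u, hu⟩ := D.exists_approx n y
  have h1 : φ y - ψ y = φ (y - D.Φ u) - ψ (y - D.Φ u) := by
    have := DFunLike.congr_fun h u
    simp only [AlgHom.comp_apply] at this
    rw [map_sub, map_sub, this]; ring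
  rw [h1]
  refine Ideal.pow_le_pow_right (Nat.le_succ n) (Ideal.sub_mem _ ?_ ?_)
  · exact map_mem_maximalIdeal_pow _ hφ hu
  · exact map_mem_maximalIdeal_pow _ hψ hu

/-- Existence of the classifying map. -/
theorem exists_classifying {r : GQ →* Matrix (Fin 2) (Fin 2) A}
    (hr : ∀ n, ∀ u ∈ T.J n, ev r u ∈ maximalIdeal A ^ (n + 1)) :
    ∃ φ : D.R →ₐ[𝒪] A, φ.comp D.Φ = ev r := by
  have hkill : ∀ n, ∀ u ∈ T.J n,
      ((Ideal.Quotient.mkₐ 𝒪 (maximalIdeal A ^ n)).comp (ev r)) u = 0 := by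
    intro n u hu
    exact Ideal.Quotient.eq_zero_iff_mem.mpr (Ideal.pow_le_pow_right (Nat.le_succ n) (hr n u hu))
  let f : ∀ n, D.R →ₐ[𝒪] A ⧸ maximalIdeal A ^ n := fun n =>
    (Ideal.Quotient.liftₐ (T.J n)
      ((Ideal.Quotient.mkₐ 𝒪 (maximalIdeal A ^ n)).comp (ev r)) (hkill n)).comp (D.π n)
  have hf : ∀ n y u, D.π n y = Ideal.Quotient.mk (T.J n) u →
      f n y = Ideal.Quotient.mk (maximalIdeal A ^ n) (ev r u) := by
    intro n y u h
    show (Ideal.Quotient.liftₐ (T.J n) _ (hkill n)) (D.π n y) = _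
    rw [h]
    rfl
  have hcompat : ∀ {m n : ℕ} (hmn : m ≤ n),
      (Ideal.Quotient.factorₐ 𝒪 (Ideal.pow_le_pow_right hmn)).comp (f n) = f m := by
    intro m n hmn
    refine AlgHom.ext fun y => ?_
    obtain ⟨u, hu⟩ := Ideal.Quotient.mk_surjective (D.π n y)
    have hu' : D.π m y = Ideal.Quotient.mk (T.J m) u := by
      rw [← D.factor_π hmn, ← hu, Ideal.Quotient.factor_mk]
    rw [AlgHom.comp_apply, hf n y u hu.symm, hf m y u hu']
    rfl
  refine ⟨IsAdicComplete.liftAlgHom (maximalIdeal A) f hcompat, ?_⟩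
  refine AlgHom.ext fun u => ?_
  rw [AlgHom.comp_apply, ← sub_eq_zero]
  refine IsHausdorff.haus' (I := maximalIdeal A) _ fun n => ?_
  rw [SModEq.zero, smul_eq_mul, Ideal.mul_top, ← Ideal.Quotient.eq_zero_iff_mem, map_sub,
    sub_eq_zero, IsAdicComplete.mk_liftAlgHom (maximalIdeal A) f hcompat]
  exact hf n _ u (D.π_Φ n u)

end Universal

end LimitData

end Fermat.Agent.UnivDef
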